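import Fermat.Agent.Switch35.Forms
import Mathlib.AlgebraicGeometry.EllipticCurve.Weierstrass

/-!
# The local conditions on a member of the Hessian family

A parameter near a cusp at `3`, a prime at which the member has `j = 0` and `5` is not a square,
and a model with the given invariants.
-/

set_option autoImplicit false

namespace FLTAgent.Hesse

open WeierstrassCurve

/-- The quartic has a root in `ℤ₃` congruent to `0`, for `d` prime to `3`. -/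
theorem exists_root_three {c d : ℤ} (hd : ¬ (3 : ℤ) ∣ d) :
    ∀ N : ℕ, ∃ r : ℤ, 3 ∣ r ∧ (3 : ℤ) ^ (N + 1) ∣ G c d r 1 := by
  intro N
  induction N with
  | zero => exact ⟨0, dvd_zero _, ⟨-c ^ 2, by unfold G; ring⟩⟩
  | succ N ih =>
    obtain ⟨r, ⟨r', rfl⟩, t, ht⟩ := ih
    obtain ⟨u, v, huv⟩ : IsCoprime d 3 := (Int.prime_three.coprime_iff_not_dvd.2 hd).symm
    refine ⟨3 * r' + 3 ^ (N + 1) * (-(t * u)),
      dvd_add (dvd_mul_right _ _) ((dvd_pow_self _ N.succ_ne_zero).mul_right _), ?_⟩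
    unfold G at ht ⊢
    refine ⟨(3 * (d * t * u) + t * v) +
      (-(36 * r' ^ 3 - 12 * c * r')) * (t * u) +
      3 ^ N * (6 * (3 * r') ^ 2 - 6 * c) * (t * u) ^ 2 +
      3 ^ N * (4 * (3 * r')) * 3 ^ (N + 1) * (-(t * u)) ^ 3 +
      3 ^ N * (3 ^ (N + 1)) ^ 2 * (t * u) ^ 4, ?_⟩
    linear_combination ht - (3 : ℤ) ^ (N + 1) * t * huv

/-- Some value of the quartic modulo `5` is `± 2`. -/
theorem exists_G_mod_five : ∀ c d : ZMod 5, c ≠ 0 ∨ d ≠ 0 → ∃ a : ZMod 5,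
    G c d a 1 = 2 ∨ G c d a 1 = 3 := by
  unfold G; decide

theorem exists_prime_dvd_mod_five {n : ℕ} (hn : n % 5 = 2 ∨ n % 5 = 3) :
    ∃ q : ℕ, q.Prime ∧ q ∣ n ∧ (q % 5 = 2 ∨ q % 5 = 3) := by
  induction n using Nat.strong_induction_on with
  | _ n ih =>
    have h1 : n ≠ 1 := by omega
    obtain ⟨p, hp, k, rfl⟩ := Nat.exists_prime_and_dvd h1
    by_cases h : p % 5 = 2 ∨ p % 5 = 3
    · exact ⟨p, hp, dvd_mul_right _ _, h⟩
    have key : ∀ a b : ℕ, a < 5 → b < 5 → ((a * b) % 5 = 2 ∨ (a * b) % 5 = 3) →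
        ¬ (a = 2 ∨ a = 3) → (b = 2 ∨ b = 3) := by
      intro a b ha hb; interval_cases a <;> interval_cases b <;> omega
    have hk : k % 5 = 2 ∨ k % 5 = 3 :=
      key _ _ (Nat.mod_lt _ (by norm_num)) (Nat.mod_lt _ (by norm_num))
        (by rwa [← Nat.mul_mod]) h
    have hlt : k < p * k := by
      have := hp.two_le
      have : 0 < k := by omega
      nlinarith
    obtain ⟨q, hq, hqk, hq5⟩ := ih k hlt hk
    exact ⟨q, hq, hqk.mul_left _, hq5⟩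

theorem not_isSquare_five {q : ℕ} [Fact q.Prime] (hq : q ≠ 2) (h : q % 5 = 2 ∨ q % 5 = 3) :
    ¬ IsSquare (5 : ZMod q) := by
  have : Fact (Nat.Prime 5) := ⟨Nat.prime_five⟩
  intro hs
  have h' : IsSquare (q : ZMod 5) :=
    (ZMod.exists_sq_eq_prime_iff_of_mod_four_eq_one (p := 5) (q := q) (by norm_num) hq).2
      (by exact_mod_cast hs)
  rw [← ZMod.natCast_mod] at h'
  rcases h with e | e <;> rw [e] at h'
  · exact absurd h' (by decide +revert)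
  · exact absurd h' (by decide +revert)

/-- A zero of the quartic gives a zero of `C4`. -/
theorem exists_C4_eq_zero {K : Type*} [Field K] (h8 : (8 : K) ≠ 0) {c d θ : K}
    (hc : c ≠ 0) (hΔ : c ^ 3 - d ^ 2 ≠ 0) (hG : G c d θ 1 = 0) :
    ∃ ξ : K, C4 c d ξ 1 = 0 := by
  have hden : θ ^ 2 - c ≠ 0 := by
    intro e
    unfold G at hG
    have h1 : (8 : K) * (c ^ 2 + d * θ) = 0 := by
      linear_combination -hG + (θ ^ 2 - 5 * c) * e
    have h2 : c ^ 2 + d * θ = 0 := (mul_eq_zero.1 h1).resolve_left h8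
    have h3 : c * (c ^ 3 - d ^ 2) = 0 := by
      linear_combination (c ^ 2 - d * θ) * h2 + d ^ 2 * e
    exact (mul_ne_zero hc hΔ) h3
  refine ⟨(-θ ^ 3 + 5 * c * θ + 4 * d) / (θ ^ 2 - c), ?_⟩
  set num := -θ ^ 3 + 5 * c * θ + 4 * d
  set den := θ ^ 2 - c with hd
  have e := C4_smul c d (num / den) 1 den
  rw [mul_div_cancel₀ _ hden, mul_one] at e
  refine (mul_eq_zero.1 (e.symm.trans ?_)).resolve_left (pow_ne_zero 4 hden)
  simp only [num, hd, C4, G] at hG ⊢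
  linear_combination (c * θ ^ 8 - 4 * d * θ ^ 7 - 8 * c ^ 2 * θ ^ 6 + 28 * c * d * θ ^ 5
    + 30 * c ^ 3 * θ ^ 4 + 20 * d ^ 2 * θ ^ 4 - 44 * c ^ 2 * d * θ ^ 3 - 88 * c * d ^ 2 * θ ^ 2
    - 56 * c ^ 4 * θ ^ 2 - 76 * c ^ 3 * d * θ - 32 * d ^ 3 * θ - 28 * c ^ 2 * d ^ 2 + c ^ 5) * hG

/-- A model with invariants congruent at `2` to those of `W` and prime to `3`. -/
theorem exists_model_of_two (W : WeierstrassCurve ℤ) {c4 c6 : ℤ}
    (h4 : (2 : ℤ) ^ 12 ∣ c4 - W.c₄) (h6 : (2 : ℤ) ^ 12 ∣ c6 - W.c₆) (h3 : ¬ (3 : ℤ) ∣ c6)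
    (h27 : (27 : ℤ) ∣ c4 ^ 3 - c6 ^ 2) :
    ∃ W' : WeierstrassCurve ℤ, W'.c₄ = c4 ∧ W'.c₆ = c6 := by
  obtain ⟨k4, hk4⟩ := h4
  obtain ⟨k6, hk6⟩ := h6
  set j := -c6 - W.b₂ with hj
  set b := W.b₂ + 2 ^ 12 * j with hb
  have key : ∀ a e f : ZMod 3, f ≠ 0 → a ^ 3 - f ^ 2 = 0 → e + f = 0 → e ^ 2 - a = 0 := by decide
  have hbc : (3 : ℤ) ∣ b + c6 := ⟨1365 * j, by rw [hb, hj]; ring⟩
  have hb3 : (3 : ℤ) ∣ b ^ 2 - c4 := by
    refine (ZMod.intCast_zmod_eq_zero_iff_dvd _ 3).1 ?_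
    push_cast
    refine key _ _ (c6 : ZMod 3) (fun e => h3 ((ZMod.intCast_zmod_eq_zero_iff_dvd _ 3).1 e)) ?_ ?_
    · have := (ZMod.intCast_zmod_eq_zero_iff_dvd (c4 ^ 3 - c6 ^ 2) 3).2
        ((show (3 : ℤ) ∣ 27 by norm_num).trans h27)
      push_cast at this
      exact this
    · have := (ZMod.intCast_zmod_eq_zero_iff_dvd (b + c6) 3).2 hbc
      push_cast at this
      exact this
  have hs0 : b ^ 2 - c4 = 24 * W.b₄ + 2 ^ 12 * (2 * W.b₂ * j + 2 ^ 12 * j ^ 2 - k4) := by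
    rw [hb, show c4 = W.c₄ + 2 ^ 12 * k4 by linear_combination hk4, WeierstrassCurve.c₄]
    ring
  obtain ⟨s, hs⟩ : (3 : ℤ) ∣ 2 * W.b₂ * j + 2 ^ 12 * j ^ 2 - k4 := by
    refine (IsCoprime.pow_right (n := 12) ?_).dvd_of_dvd_mul_left
      (show (3 : ℤ) ∣ 2 ^ 12 * _ from ?_)
    · exact Int.prime_three.coprime_iff_not_dvd.2 (by norm_num)
    · rw [show (2 : ℤ) ^ 12 * (2 * W.b₂ * j + 2 ^ 12 * j ^ 2 - k4) = (b ^ 2 - c4) - 24 * W.b₄ by
        rw [hs0]; ring]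
      exact dvd_sub hb3 ⟨8 * W.b₄, by ring⟩
  rw [hs] at hs0
  set b4 := W.b₄ + 2 ^ 9 * s with hb4
  have hc4 : c4 = b ^ 2 - 24 * b4 := by rw [hb4]; linear_combination -hs0
  have h27' : (27 : ℤ) ∣ b ^ 3 - 36 * b * b4 + c6 := by
    have hprod : (27 : ℤ) ∣ (b ^ 3 - 36 * b * b4 + c6) * (b ^ 3 - 36 * b * b4 - c6) := by
      have : (b ^ 3 - 36 * b * b4 + c6) * (b ^ 3 - 36 * b * b4 - c6) =
          (c4 ^ 3 - c6 ^ 2) - 27 * (16 * b ^ 2 * b4 ^ 2 - 512 * b4 ^ 3) := by rw [hc4]; ring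
      rw [this]
      exact dvd_sub h27 (dvd_mul_right _ _)
    have hne : ¬ (3 : ℤ) ∣ b ^ 3 - 36 * b * b4 - c6 := by
      intro h
      refine h3 ?_
      have h1 : (3 : ℤ) ∣ b ^ 3 - b := by
        refine (ZMod.intCast_zmod_eq_zero_iff_dvd _ 3).1 ?_
        push_cast
        exact (show ∀ e : ZMod 3, e ^ 3 - e = 0 by decide) _
      have h2 : (3 : ℤ) ∣ 2 * c6 := by
        rw [show 2 * c6 = (b + c6) + (b ^ 3 - b) - (b ^ 3 - 36 * b * b4 - c6) - 3 * (12 * b * b4)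
          by ring]
        exact dvd_sub (dvd_sub (dvd_add hbc h1) h) (dvd_mul_right _ _)
      exact (Int.prime_three.dvd_or_dvd h2).resolve_left (by norm_num)
    refine IsCoprime.dvd_of_dvd_mul_right ?_ hprod
    rw [show (27 : ℤ) = 3 ^ 3 by norm_num]
    exact (Int.prime_three.coprime_iff_not_dvd.2 hne).pow_left
  set Q := -(3 * W.b₂ ^ 2 * j + 3 * W.b₂ * 2 ^ 12 * j ^ 2 + (2 ^ 12) ^ 2 * j ^ 3)
    + 36 * j * W.b₄ - k6 with hQ
  have hdec : -(b ^ 3 - 36 * b * b4 + c6) = 216 * W.b₆ + 2 ^ 9 * (8 * Q + 36 * s * b) := by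
    rw [hQ, hb4, hb, show c6 = W.c₆ + 2 ^ 12 * k6 by linear_combination hk6, WeierstrassCurve.c₆]
    ring
  obtain ⟨u, hu⟩ : (27 : ℤ) ∣ 8 * Q + 36 * s * b := by
    refine (IsCoprime.pow_right (n := 9)
      (show IsCoprime (27 : ℤ) 2 from ⟨1, -13, by norm_num⟩)).dvd_of_dvd_mul_left ?_
    rw [show (2 : ℤ) ^ 9 * (8 * Q + 36 * s * b) = -(b ^ 3 - 36 * b * b4 + c6) - 216 * W.b₆ by
      rw [hdec]; ring]
    exact dvd_sub h27'.neg_right ⟨8 * W.b₆, by ring⟩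
  refine ⟨⟨W.a₁, W.a₂ + 2 ^ 10 * j, W.a₃, W.a₄ + 2 ^ 8 * s, W.a₆ + 16 * u⟩, ?_, ?_⟩
  · rw [hc4]
    simp only [hb, hb4, WeierstrassCurve.c₄, WeierstrassCurve.b₂, WeierstrassCurve.b₄]
    ring
  · rw [hu] at hdec
    have hc6 : c6 = -(b ^ 3 - 36 * b * b4) - (216 * W.b₆ + 2 ^ 9 * (27 * u)) := by
      linear_combination -hdec
    rw [hc6]
    simp only [hb, hb4, WeierstrassCurve.c₆, WeierstrassCurve.b₂, WeierstrassCurve.b₄,
      WeierstrassCurve.b₆]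
    ring

end FLTAgent.Hesse
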