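import Fermat.Prelude.Def_FLTPrelim_Modularity
import Fermat.Agent.Switch35.Local

/-!
# A member of the Hessian family near the cusp at `3`, with `j = 0` at an auxiliary prime
-/

set_option autoImplicit false

namespace FLTAgent.Hesse

open WeierstrassCurve

theorem exists_mul_pow_three {n : ℤ} (hn : n ≠ 0) :
    ∃ (k : ℕ) (n' : ℤ), ¬ (3 : ℤ) ∣ n' ∧ n = 3 ^ k * n' :=
  WfDvdMonoid.max_power_factor hn Int.prime_three.irreducible

theorem exists_mul_pow_five {n : ℤ} (hn : n ≠ 0) :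
    ∃ (k : ℕ) (n' : ℤ), ¬ (5 : ℤ) ∣ n' ∧ n = 5 ^ k * n' :=
  WfDvdMonoid.max_power_factor hn
    (Nat.prime_iff_prime_int.1 Nat.prime_five).irreducible

/-- A prime, away from `6 Δ`, where `5` is not a square and some member has `c₄ ≡ 0`. -/
theorem exists_aux_prime (W : WeierstrassCurve ℤ) (hΔ : W.Δ ≠ 0) (hW : W.IsSemistableModel)
    (hc : W.c₄ ≠ 0) :
    ∃ (q : ℕ) (_ : Fact q.Prime), ¬ (q : ℤ) ∣ 6 * W.Δ ∧ ¬ IsSquare (5 : ZMod q) ∧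
      ∃ ξ : ZMod q, C4 (W.c₄ : ZMod q) (W.c₆ : ZMod q) ξ 1 = 0 := by
  have : Fact (Nat.Prime 5) := ⟨Nat.prime_five⟩
  obtain ⟨k, n, hn5, hn⟩ := exists_mul_pow_five
    (mul_ne_zero (mul_ne_zero (by norm_num : (6 : ℤ) ≠ 0) hΔ) hc)
  have hne : (W.c₄ : ZMod 5) ≠ 0 ∨ (W.c₆ : ZMod 5) ≠ 0 := by
    by_contra h
    push Not at h
    have h4 := (ZMod.intCast_zmod_eq_zero_iff_dvd _ 5).1 h.1
    have h6 := (ZMod.intCast_zmod_eq_zero_iff_dvd _ 5).1 h.2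
    refine hW 5 Nat.prime_five ?_ h4
    have h5 : ((5 : ℕ) : ℤ) ∣ 1728 * W.Δ := by
      rw [W.c_relation]; exact dvd_sub (dvd_pow h4 (by norm_num)) (dvd_pow h6 (by norm_num))
    exact ((Nat.prime_iff_prime_int.1 Nat.prime_five).dvd_or_dvd h5).resolve_left (by norm_num)
  obtain ⟨a, ha⟩ := exists_G_mod_five _ _ hne
  obtain ⟨a, rfl⟩ := ZMod.intCast_surjective a
  obtain ⟨u, v, huv⟩ : IsCoprime n 5 :=
    ((Nat.prime_iff_prime_int.1 Nat.prime_five).coprime_iff_not_dvd.2 hn5).symm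
  set x := 1 + n * u * (a * n - 1) with hx
  have hv : ((G W.c₄ W.c₆ x n : ℤ) : ZMod 5) = G (W.c₄ : ZMod 5) (W.c₆ : ZMod 5) (a : ZMod 5) 1 := by
    have hnu : (n : ZMod 5) * (u : ZMod 5) = 1 := by
      have := congrArg (Int.cast : ℤ → ZMod 5) huv
      push_cast at this
      rw [show (5 : ZMod 5) = 0 from rfl, mul_zero, add_zero] at this
      rw [mul_comm]; exact this
    have hxv : (x : ZMod 5) = (n : ZMod 5) * (a : ZMod 5) := by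
      rw [hx]; push_cast; linear_combination ((a : ZMod 5) * n - 1) * hnu
    have hn4 : (n : ZMod 5) ^ 4 = 1 := ZMod.pow_card_sub_one_eq_one (p := 5)
      (fun e => hn5 ((ZMod.intCast_zmod_eq_zero_iff_dvd _ 5).1 e))
    rw [← eq_intCast (Int.castRingHom (ZMod 5)), map_G]
    simp only [eq_intCast]
    conv_lhs => rw [hxv, ← mul_one (n : ZMod 5)]
    rw [mul_one (n : ZMod 5)]
    have e := G_smul (W.c₄ : ZMod 5) (W.c₆ : ZMod 5) (a : ZMod 5) 1 (n : ZMod 5)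
    rw [mul_one, hn4, one_mul] at e
    exact e
  set g := G W.c₄ W.c₆ x n with hg
  have hmod : g.natAbs % 5 = 2 ∨ g.natAbs % 5 = 3 := by
    have h2 : g % 5 = 2 ∨ g % 5 = 3 := by
      rw [← hv] at ha
      rcases ha with e | e
      · left
        have := (ZMod.intCast_eq_intCast_iff' g 2 5).1 (by simpa using e)
        simpa using this
      · right
        have := (ZMod.intCast_eq_intCast_iff' g 3 5).1 (by simpa using e)
        simpa using this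
    omega
  obtain ⟨q, hq, hqg, hq5⟩ := exists_prime_dvd_mod_five hmod
  have : Fact q.Prime := ⟨hq⟩
  have hqp := Nat.prime_iff_prime_int.1 hq
  have hqg' : (q : ℤ) ∣ g := Int.natCast_dvd.2 hqg
  have hqn : ¬ (q : ℤ) ∣ n := by
    intro h
    have hx1 : (q : ℤ) ∣ x - 1 := h.trans ⟨u * (a * n - 1), by rw [hx]; ring⟩
    have hxn : (q : ℤ) ∣ x ^ 4 := by
      rw [show x ^ 4 = g + n * (6 * W.c₄ * x ^ 2 * n + 8 * W.c₆ * x * n ^ 2
        + 3 * W.c₄ ^ 2 * n ^ 3) by rw [hg]; unfold G; ring]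
      exact dvd_add hqg' (h.mul_right _)
    exact hqp.not_isUnit (isUnit_of_dvd_one (by
      have := dvd_sub (hqp.dvd_of_dvd_pow hxn) hx1
      rwa [sub_sub_cancel] at this))
  have hq6 : ¬ (q : ℤ) ∣ 6 * W.Δ * W.c₄ := by
    intro h
    rw [hn] at h
    rcases hqp.dvd_or_dvd h with h | h
    · have := Int.natCast_dvd_natCast.1 (show (q : ℤ) ∣ ((5 : ℕ) : ℤ) from hqp.dvd_of_dvd_pow h)
      rcases (Nat.dvd_prime Nat.prime_five).1 this with e | e <;> omega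
    · exact hqn h
  have h6Δ : ¬ (q : ℤ) ∣ 6 * W.Δ := fun h => hq6 (h.mul_right _)
  have hq2 : q ≠ 2 := by rintro rfl; exact h6Δ ⟨3 * W.Δ, by push_cast; ring⟩
  refine ⟨q, inferInstance, h6Δ, not_isSquare_five hq2 hq5, ?_⟩
  have hz : ∀ z : ℤ, ¬ (q : ℤ) ∣ z → (z : ZMod q) ≠ 0 := fun z hz e =>
    hz ((ZMod.intCast_zmod_eq_zero_iff_dvd _ q).1 e)
  have h8 : (8 : ZMod q) ≠ 0 := by
    have := hz 8 fun h => h6Δ (by
      have h2 := Int.natCast_dvd_natCast.1 (show (q : ℤ) ∣ ((2 : ℕ) : ℤ) from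
        hqp.dvd_of_dvd_pow (n := 3) (by simpa using h))
      exact absurd ((Nat.prime_dvd_prime_iff_eq hq Nat.prime_two).1 h2) hq2)
    simpa using this
  have hn0 := hz n hqn
  have hGq : G (W.c₄ : ZMod q) (W.c₆ : ZMod q) ((x : ZMod q) / n) 1 = 0 := by
    have e := G_smul (W.c₄ : ZMod q) (W.c₆ : ZMod q) ((x : ZMod q) / n) 1 (n : ZMod q)
    rw [mul_div_cancel₀ _ hn0, mul_one] at e
    have e0 : ((g : ℤ) : ZMod q) = 0 := (ZMod.intCast_zmod_eq_zero_iff_dvd _ q).2 hqg'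
    rw [hg, ← eq_intCast (Int.castRingHom (ZMod q)), map_G] at e0
    simp only [eq_intCast] at e0
    rw [e0] at e
    exact (mul_eq_zero.1 e.symm).resolve_left (pow_ne_zero 4 hn0)
  refine exists_C4_eq_zero h8 (hz _ fun h => hq6 (h.mul_left _)) ?_ hGq
  have := hz (1728 * W.Δ) fun h => by
    rcases hqp.dvd_or_dvd h with h | h
    · have h1 : (q : ℤ) ∣ (6 : ℤ) ^ 6 := h.trans ⟨27, by norm_num⟩
      exact h6Δ ((hqp.dvd_of_dvd_pow h1).mul_right _)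
    · exact h6Δ (h.mul_left _)
  rw [W.c_relation] at this
  simpa using this

/-- **The member**: semistable, near the cusp at `3`, with `j = 0` at a prime where `5` is not a
square. -/
theorem exists_member (W : WeierstrassCurve ℤ) (hΔ : W.Δ ≠ 0) (hW : W.IsSemistableModel)
    (hc : W.c₄ ≠ 0) (h3 : ¬ (3 : ℤ) ∣ W.c₄) :
    ∃ (W' : WeierstrassCurve ℤ) (x y : ℤ) (q : ℕ), W'.Δ ≠ 0 ∧ W'.IsSemistableModel ∧
      (3 : ℤ) ^ 25 ∣ W'.Δ ∧ G W.c₄ W.c₆ x y ≠ 0 ∧ W'.c₄ = C4 W.c₄ W.c₆ x y ∧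
      W'.c₆ = C6 W.c₄ W.c₆ x y ∧ q.Prime ∧ (q : ℤ) ∣ W'.c₄ ∧ ¬ (q : ℤ) ∣ W'.Δ ∧
      ¬ IsSquare (5 : ZMod q) := by
  have h3d : ¬ (3 : ℤ) ∣ W.c₆ := fun h => h3 (Int.prime_three.dvd_of_dvd_pow (n := 3) (by
    rw [show W.c₄ ^ 3 = 1728 * W.Δ + W.c₆ ^ 2 by linear_combination -W.c_relation]
    exact dvd_add ⟨576 * W.Δ, by ring⟩ (dvd_pow h two_ne_zero)))
  obtain ⟨q, _, hq6, hsq, ξ, hξ⟩ := exists_aux_prime W hΔ hW hc
  obtain ⟨ξ, rfl⟩ := ZMod.intCast_surjective ξ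
  have hqp := Nat.prime_iff_prime_int.1 (Fact.out : q.Prime)
  obtain ⟨e, Δ', hΔ'3, hΔe⟩ := exists_mul_pow_three hΔ
  obtain ⟨r, ⟨r', hr'⟩, hr⟩ := exists_root_three (c := W.c₄) h3d 9
  set K : ℤ := 2 ^ 12 * Δ' with hK
  have hK3 : ¬ (3 : ℤ) ∣ K := fun h =>
    (Int.prime_three.dvd_or_dvd h).elim (by norm_num) hΔ'3
  have hKq : ¬ (q : ℤ) ∣ K := fun h => by
    rcases hqp.dvd_or_dvd h with h | h
    · exact hq6 ((hqp.dvd_of_dvd_pow h).trans ⟨3 * W.Δ, by ring⟩)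
    · exact hq6 ((h.trans ⟨3 ^ e, by rw [hΔe]; ring⟩).mul_left _)
  have h3q : ¬ (q : ℤ) ∣ 3 := fun h => hq6 (h.trans ⟨2 * W.Δ, by ring⟩)
  -- `x ≡ 1` modulo `K`, `x ≡ r K` modulo `3 ^ 10`, `x ≡ ξ K` modulo `q`
  obtain ⟨a₁, b₁, h₁⟩ : IsCoprime K ((3 : ℤ) ^ 10) :=
    ((Int.prime_three.coprime_iff_not_dvd.2 hK3).symm).pow_right
  obtain ⟨a₂, b₂, h₂⟩ : IsCoprime (K * 3 ^ 10) (q : ℤ) := by
    refine (hqp.coprime_iff_not_dvd.2 fun h => ?_).symm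
    exact (hqp.dvd_or_dvd h).elim hKq fun h => h3q (hqp.dvd_of_dvd_pow h)
  set x₀ := 1 + K * a₁ * (r * K - 1) with hx₀
  set x := x₀ + K * 3 ^ 10 * a₂ * (ξ * K - x₀) with hx
  have hxK : K ∣ x - 1 :=
    ⟨a₁ * (r * K - 1) + 3 ^ 10 * a₂ * (ξ * K - x₀), by rw [hx, hx₀]; ring⟩
  have hx3 : (3 : ℤ) ^ 10 ∣ x - r * K :=
    ⟨-(b₁ * (r * K - 1)) + K * a₂ * (ξ * K - x₀), by
      rw [hx, hx₀]; linear_combination (r * K - 1) * h₁⟩
  have hxq : (q : ℤ) ∣ x - ξ * K :=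
    ⟨-(b₂ * (ξ * K - x₀)), by rw [hx]; linear_combination (ξ * K - x₀) * h₂⟩
  -- congruences of the invariants
  have congr : ∀ (m : ℕ) (z : ℤ), (m : ℤ) ∣ x - z → ∀ w : ℤ, (m : ℤ) ∣ K - w →
      ((C4 W.c₄ W.c₆ x K : ℤ) : ZMod m) = C4 (W.c₄ : ZMod m) W.c₆ z w ∧
      ((C6 W.c₄ W.c₆ x K : ℤ) : ZMod m) = C6 (W.c₄ : ZMod m) W.c₆ z w ∧
      ((G W.c₄ W.c₆ x K : ℤ) : ZMod m) = G (W.c₄ : ZMod m) W.c₆ z w := by
    intro m z hz w hw
    rw [← ZMod.intCast_zmod_eq_zero_iff_dvd, Int.cast_sub, sub_eq_zero] at hz hw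
    refine ⟨?_, ?_, ?_⟩ <;>
      simp only [C4, C6, G] <;> push_cast <;> rw [hz, hw]
  obtain ⟨n, hn⟩ : ∃ n : ℕ, (n : ℤ) = |K| := ⟨K.natAbs, Int.natCast_natAbs K⟩
  have hnK : ∀ z : ℤ, K ∣ z → (n : ℤ) ∣ z := fun z h => hn ▸ (abs_dvd _ _).2 h
  obtain ⟨e4, e6, eG⟩ := congr n 1 (hnK _ hxK) 0 (hnK _ (by simp))
  rw [Int.cast_one, Int.cast_zero] at e4 e6 eG
  rw [show C4 (W.c₄ : ZMod n) W.c₆ 1 0 = W.c₄ by simp [C4]] at e4
  rw [show C6 (W.c₄ : ZMod n) W.c₆ 1 0 = W.c₆ by simp [C6]] at e6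
  rw [show G (W.c₄ : ZMod n) W.c₆ 1 0 = 1 by simp [G]] at eG
  set c4 := C4 W.c₄ W.c₆ x K
  set c6 := C6 W.c₄ W.c₆ x K
  set g := G W.c₄ W.c₆ x K
  have dK : ∀ z w : ℤ, (z : ZMod n) = (w : ZMod n) → K ∣ z - w := fun z w h => by
    have := (ZMod.intCast_zmod_eq_zero_iff_dvd (z - w) n).1 (by rw [Int.cast_sub, h, sub_self])
    rw [hn] at this
    exact (abs_dvd _ _).1 this
  have hd4 : K ∣ c4 - W.c₄ := dK _ _ e4
  have hd6 : K ∣ c6 - W.c₆ := dK _ _ e6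
  have hdG : K ∣ g - 1 := dK _ _ (by simpa using eG)
  have h2K : (2 : ℤ) ^ 12 ∣ K := dvd_mul_right _ _
  -- at three
  obtain ⟨f4, f6, fG⟩ := congr 3 0 (by
    have h1 : (3 : ℤ) ∣ x - r * K := (dvd_pow_self _ (by norm_num : (10 : ℕ) ≠ 0)).trans hx3
    have := dvd_add h1 (show (3 : ℤ) ∣ r * K from ⟨r' * K, by rw [hr']; ring⟩)
    simpa using this) K (by simp)
  have hc4_3 : ¬ (3 : ℤ) ∣ c4 := fun h => by
    rw [show (3 : ℤ) = ((3 : ℕ) : ℤ) from rfl, ← ZMod.intCast_zmod_eq_zero_iff_dvd] at h h3 h3d hK3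
    have key : ∀ c d k : ZMod 3, d ≠ 0 → k ≠ 0 → C4 c d 0 k ≠ 0 := by unfold C4; decide
    exact key _ _ _ h3d hK3 (by simpa [f4] using h)
  have hc6_3 : ¬ (3 : ℤ) ∣ c6 := fun h => by
    rw [show (3 : ℤ) = ((3 : ℕ) : ℤ) from rfl, ← ZMod.intCast_zmod_eq_zero_iff_dvd] at h h3 h3d hK3
    have key : ∀ c d k : ZMod 3, d ≠ 0 → k ≠ 0 → C6 c d 0 k ≠ 0 := by unfold C6; decide
    exact key _ _ _ h3d hK3 (by simpa [f6] using h)
  have hsyz : c4 ^ 3 - c6 ^ 2 = 1728 * (W.Δ * g ^ 3) := by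
    rw [syzygy, ← W.c_relation]; ring
  obtain ⟨W', hW4, hW6⟩ := exists_model_of_two W (h2K.trans hd4) (h2K.trans hd6) hc6_3
    ⟨64 * (W.Δ * g ^ 3), by rw [hsyz]; ring⟩
  have hD : W'.Δ = W.Δ * g ^ 3 := by
    have := W'.c_relation
    rw [hW4, hW6, hsyz] at this
    linarith
  have hg0 : g ≠ 0 := fun e0 => by
    rw [e0] at hdG
    have h2 : (2 : ℤ) ∣ 0 - 1 := ((dvd_pow_self _ (by norm_num : (12 : ℕ) ≠ 0)).trans h2K).trans hdG
    norm_num at h2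
  have hgood : ∀ p : ℕ, p.Prime → (p : ℤ) ∣ W'.Δ → (p : ℤ) ∣ c4 → False := by
    intro p hp hpD hp4
    have hpp := Nat.prime_iff_prime_int.1 hp
    by_cases hpK : (p : ℤ) ∣ K
    · have hp0 : (p : ℤ) ∣ W.c₄ := by
        have := dvd_sub hp4 (hpK.trans hd4)
        rwa [sub_sub_cancel] at this
      rw [hD] at hpD
      rcases hpp.dvd_or_dvd hpD with h | h
      · exact hW p hp h hp0
      · have h1 := dvd_sub (hpp.dvd_of_dvd_pow h) (hpK.trans hdG)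
        rw [sub_sub_cancel] at h1
        exact hpp.not_isUnit (isUnit_of_dvd_one h1)
    · by_cases hp3 : p = 3
      · subst hp3; exact hc4_3 hp4
      have hp2 : p ≠ 2 := by
        rintro rfl
        exact hpK ((dvd_pow_self _ (by norm_num : (12 : ℕ) ≠ 0)).trans h2K)
      have : Fact p.Prime := ⟨hp⟩
      have hz : ∀ m : ℕ, m.Prime → p ≠ m → ((m : ℕ) : ZMod p) ≠ 0 := fun m hm hne e0 => hne
        ((Nat.prime_dvd_prime_iff_eq hp hm).1 ((ZMod.natCast_eq_zero_iff _ _).1 e0))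
      have hpΔ : ¬ (p : ℤ) ∣ W.Δ := by
        rw [hΔe]
        intro h
        rcases hpp.dvd_or_dvd h with h | h
        · exact hp3 ((Nat.prime_dvd_prime_iff_eq hp Nat.prime_three).1
            (Int.natCast_dvd_natCast.1 (hpp.dvd_of_dvd_pow h)))
        · exact hpK (h.mul_left _)
      rw [hD] at hpD
      have hpg := hpp.dvd_of_dvd_pow ((hpp.dvd_or_dvd hpD).resolve_left hpΔ)
      rw [← ZMod.intCast_zmod_eq_zero_iff_dvd] at hpg hp4 hpK hpΔ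
      obtain ⟨p4, -, pG⟩ := congr p x (by simp) K (by simp)
      have key := eq_zero_of_G_C4 (by simpa using hz 2 Nat.prime_two hp2)
        (by simpa using hz 3 Nat.prime_three hp3) (pG ▸ hpg) (p4 ▸ hp4) (Or.inr hpK)
      have h2 := congrArg (Int.cast : ℤ → ZMod p) W.c_relation
      push_cast at h2
      rw [key] at h2
      refine (mul_ne_zero ?_ hpΔ) h2
      rw [show (1728 : ZMod p) = ((2 : ℕ) : ZMod p) ^ 6 * ((3 : ℕ) : ZMod p) ^ 3 by norm_num]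
      exact mul_ne_zero (pow_ne_zero _ (hz 2 Nat.prime_two hp2))
        (pow_ne_zero _ (hz 3 Nat.prime_three hp3))
  have hq4 : (q : ℤ) ∣ c4 := by
    rw [← ZMod.intCast_zmod_eq_zero_iff_dvd, (congr q (ξ * K) hxq K (by simp)).1, Int.cast_mul]
    have e := C4_smul (W.c₄ : ZMod q) (W.c₆ : ZMod q) (ξ : ZMod q) 1 (K : ZMod q)
    rw [mul_one, hξ, mul_zero, mul_comm (K : ZMod q)] at e
    exact e
  refine ⟨W', x, K, q, hD ▸ mul_ne_zero hΔ (pow_ne_zero 3 hg0),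
    fun p hp h1 h2 => hgood p hp h1 (hW4 ▸ h2), ?_, hg0, hW4, hW6, Fact.out, hW4.symm ▸ hq4,
    fun h => hgood q Fact.out h hq4, hsq⟩
  have hg3 : (3 : ℤ) ^ 10 ∣ g := by
    obtain ⟨t, ht⟩ := hx3
    have hxe : x = r * K + 3 ^ 10 * t := by linear_combination ht
    have h1 : (3 : ℤ) ^ 10 ∣ g - G W.c₄ W.c₆ (r * K) K :=
      ⟨t * (4 * (r * K) ^ 3 - 12 * W.c₄ * (r * K) * K ^ 2 - 8 * W.c₆ * K ^ 3)
        + t ^ 2 * 3 ^ 10 * (6 * (r * K) ^ 2 - 6 * W.c₄ * K ^ 2)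
        + t ^ 3 * (3 ^ 10) ^ 2 * (4 * (r * K)) + t ^ 4 * (3 ^ 10) ^ 3, by
        show G W.c₄ W.c₆ x K - _ = _
        rw [hxe]; unfold G; ring⟩
    have h2 : (3 : ℤ) ^ 10 ∣ G W.c₄ W.c₆ (r * K) K := by
      have e := G_smul W.c₄ W.c₆ r 1 K
      rw [mul_one, mul_comm K r] at e
      exact e ▸ hr.mul_left _
    simpa using dvd_add h1 h2
  rw [hD]
  exact ((pow_dvd_pow (3 : ℤ) (show 25 ≤ 10 * 3 by norm_num)).trans
    (by rw [pow_mul]; exact pow_dvd_pow_of_dvd hg3 3)).mul_left _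

end FLTAgent.Hesse
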