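import Fermat.Prelude.Def_FLTPrelim_ModularRep
import Fermat.Agent.Torsion.Structure
import Fermat.Agent.Char.Rational
import Mathlib.Tactic.LinearCombination
import Mathlib.Tactic.FieldSimp

/-!
# Irreducibility at five from a prime dividing `c₄` modulo which `5` is not a square

A stable line in the `5`-torsion gives a rational parameter `m` with
`(m² + 10 m + 5)³ Δ = m c₄³`, read off the Tate normal form at a generator of the line.
-/

set_option autoImplicit false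

namespace FLTAgent.Hesse

open WeierstrassCurve

local notation "Qb" => AlgebraicClosure ℚ

section

variable {F : Type*} [Field F] [DecidableEq F]

/-- The Tate parameters of a point of order five. -/
theorem exists_tate_five {W : Affine F} {x₀ y₀ : F} (hR : W.Nonsingular x₀ y₀)
    (h5 : 5 • Affine.Point.some x₀ y₀ hR = 0) :
    ∃ (x₂ y₂ : F) (hn : W.Nonsingular x₂ y₂) (u b : F),
      Affine.Point.some x₀ y₀ hR + Affine.Point.some x₀ y₀ hR = Affine.Point.some x₂ y₂ hn ∧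
      u ≠ 0 ∧ b ≠ 0 ∧
      12 * x₀ + W.b₂ = u ^ 2 * (b ^ 2 - 6 * b + 1) ∧
      12 * x₂ + W.b₂ = u ^ 2 * (b ^ 2 + 6 * b + 1) ∧
      W.c₄ = u ^ 4 * (b ^ 4 - 12 * b ^ 3 + 14 * b ^ 2 + 12 * b + 1) ∧
      W.Δ = u ^ 12 * (b ^ 5 * (b ^ 2 - 11 * b - 1)) := by
  set P : W.Point := Affine.Point.some x₀ y₀ hR with hP
  have hP0 : P ≠ 0 := Affine.Point.some_ne_zero hR
  have hmul : ∀ k : ℕ, k % 5 ≠ 0 → k • P ≠ 0 := fun k hk h => by
    have hdvd := addOrderOf_dvd_iff_nsmul_eq_zero.mpr h5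
    rcases (Nat.dvd_prime Nat.prime_five).1 hdvd with e | e
    · exact hP0 (AddMonoid.addOrderOf_eq_one_iff.1 e)
    · exact hk (Nat.mod_eq_zero_of_dvd (e ▸ addOrderOf_dvd_iff_nsmul_eq_zero.mpr h))
  have hy : y₀ ≠ W.negY x₀ y₀ := fun h =>
    hmul 2 (by norm_num) (by rw [two_nsmul]; exact Affine.Point.add_self_of_Y_eq h)
  obtain ⟨ℓ, hℓdef⟩ : ∃ t : F, t = W.slope x₀ x₀ y₀ y₀ := ⟨_, rfl⟩
  have hA3' : 2 * y₀ + W.a₁ * x₀ + W.a₃ ≠ 0 := by
    intro h; apply hy; rw [Affine.negY]; linear_combination h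
  have hℓ : ℓ * (2 * y₀ + W.a₁ * x₀ + W.a₃) =
      3 * x₀ ^ 2 + 2 * W.a₂ * x₀ + W.a₄ - W.a₁ * y₀ := by
    rw [hℓdef, Affine.slope_of_Y_ne rfl hy,
      show y₀ - W.negY x₀ y₀ = 2 * y₀ + W.a₁ * x₀ + W.a₃ by rw [Affine.negY]; ring,
      div_mul_cancel₀ _ hA3']
  obtain ⟨A₁, hA₁⟩ : ∃ t : F, t = W.a₁ + 2 * ℓ := ⟨_, rfl⟩
  obtain ⟨A₃, hA₃⟩ : ∃ t : F, t = 2 * y₀ + W.a₁ * x₀ + W.a₃ := ⟨_, rfl⟩
  obtain ⟨A₂, hA₂⟩ : ∃ t : F, t = 3 * x₀ + W.a₂ - ℓ * (ℓ + W.a₁) := ⟨_, rfl⟩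
  have hA3 : A₃ ≠ 0 := hA₃ ▸ hA3'
  rw [← hA₃] at hℓ
  -- `2P`
  obtain ⟨x₂, hx2⟩ : ∃ t : F, t = W.addX x₀ x₀ ℓ := ⟨_, rfl⟩
  obtain ⟨y₂, hy2⟩ : ∃ t : F, t = W.addY x₀ x₀ y₀ ℓ := ⟨_, rfl⟩
  obtain ⟨hn2, hP2⟩ : ∃ h, P + P = Affine.Point.some x₂ y₂ h := by
    subst hℓdef hx2 hy2; exact ⟨_, Affine.Point.add_self_of_Y_ne hy⟩
  have hX2 : x₂ - x₀ = -A₂ := by rw [hx2, Affine.addX, hA₂]; ring
  have hY2 : y₂ - y₀ = -ℓ * (x₂ - x₀) - A₃ - W.a₁ * (x₂ - x₀) := by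
    rw [hy2, Affine.addY, Affine.negAddY, Affine.negY, ← hx2, hA₃]; ring
  have hx20 : x₀ ≠ x₂ := by
    intro hx
    rcases (Affine.Point.X_eq_iff (h₁ := hR) (h₂ := hn2)).mp hx with h | h
    · rw [← hP2] at h
      exact hP0 (left_eq_add.mp h)
    · rw [← hP2, eq_neg_iff_add_eq_zero] at h
      exact hmul 3 (by norm_num) (by
        rw [show 3 = 1 + 2 from rfl, add_nsmul, one_nsmul, two_nsmul]; exact h)
  have hA2 : A₂ ≠ 0 := fun h => hx20 (by linear_combination -hX2 + h)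
  obtain ⟨u, hu⟩ : ∃ t : F, t = A₃ / A₂ := ⟨_, rfl⟩
  have hu0 : u ≠ 0 := hu ▸ div_ne_zero hA3 hA2
  obtain ⟨b, hb⟩ : ∃ t : F, t = -A₂ / u ^ 2 := ⟨_, rfl⟩
  obtain ⟨c, hc⟩ : ∃ t : F, t = 1 - A₁ / u := ⟨_, rfl⟩
  have hb0 : b ≠ 0 := hb ▸ div_ne_zero (neg_ne_zero.mpr hA2) (pow_ne_zero 2 hu0)
  have eA2 : A₂ = -(b * u ^ 2) := by rw [hb]; field_simp
  have eA1 : A₁ = u * (1 - c) := by rw [hc]; field_simp; ring
  have eA3 : A₃ = -(b * u ^ 3) := by
    rw [show A₃ = u * A₂ by rw [hu]; field_simp, eA2]; ring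
  -- `3P = -2P`
  obtain ⟨m, hm⟩ : ∃ t : F, t = W.slope x₀ x₂ y₀ y₂ := ⟨_, rfl⟩
  have hm' : m * (x₀ - x₂) = y₀ - y₂ := by
    rw [hm, Affine.slope_of_X_ne hx20, div_mul_cancel₀ _ (sub_ne_zero.mpr hx20)]
  have hmu : m = ℓ + u * c := by
    have h0 : x₀ - x₂ ≠ 0 := sub_ne_zero.mpr hx20
    apply mul_right_cancel₀ h0
    rw [show W.a₁ = A₁ - 2 * ℓ by rw [hA₁]; ring] at hY2
    linear_combination hm' - hY2 + (A₁ + u * c) * hX2 + eA3 - (A₁ + u * c) * eA2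
      + b * u ^ 2 * eA1
  obtain ⟨x₃, hx3⟩ : ∃ t : F, t = W.addX x₀ x₂ m := ⟨_, rfl⟩
  obtain ⟨y₃, hy3⟩ : ∃ t : F, t = W.addY x₀ x₂ y₀ m := ⟨_, rfl⟩
  have hX3 : x₃ - x₀ = u ^ 2 * c := by
    rw [hx3, Affine.addX, hmu]
    linear_combination -hX2 + hA₂ - (u * c) * hA₁ + (u * c) * eA1
  obtain ⟨hn3, hP3⟩ : ∃ h, P + Affine.Point.some x₂ y₂ hn2 = Affine.Point.some x₃ y₃ h := by
    rw [hm] at hx3 hy3; subst hx3 hy3; exact ⟨_, Affine.Point.add_of_X_ne hx20⟩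
  have hcb : c = b := by
    have hneg : P + (P + P) = -(P + P) := eq_neg_of_add_eq_zero_left <| by
      have e : P + (P + P) + (P + P) = 5 • P := by abel
      rw [e]; exact h5
    rw [hP2, hP3, Affine.Point.neg_some, Affine.Point.some.injEq] at hneg
    have h : u ^ 2 * c = u ^ 2 * b := by
      linear_combination -hX3 + hneg.1 + hX2 - eA2
    exact mul_left_cancel₀ (pow_ne_zero 2 hu0) h
  rw [hcb] at eA1
  -- the normal form
  let C : VariableChange F := ⟨Units.mk0 u hu0, x₀, ℓ, y₀⟩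
  have hC : C • (W : WeierstrassCurve F) = ⟨1 - b, -b, -b, 0, 0⟩ := by
    have heq : y₀ ^ 2 + W.a₁ * x₀ * y₀ + W.a₃ * y₀ =
        x₀ ^ 3 + W.a₂ * x₀ ^ 2 + W.a₄ * x₀ + W.a₆ := (Affine.equation_iff _ _).mp hR.1
    refine WeierstrassCurve.ext ?_ ?_ ?_ ?_ ?_ <;>
      simp only [C, variableChange_a₁, variableChange_a₂, variableChange_a₃, variableChange_a₄,
        variableChange_a₆, Units.val_inv_eq_inv_val, Units.val_mk0] <;> field_simp
    · linear_combination eA1 - hA₁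
    · linear_combination eA2 - hA₂
    · linear_combination eA3 - hA₃
    · linear_combination -hℓ + ℓ * hA₃
    · linear_combination -heq
  have hb₂ := congrArg WeierstrassCurve.b₂ hC
  have hc₄ := congrArg WeierstrassCurve.c₄ hC
  have hΔ := congrArg WeierstrassCurve.Δ hC
  rw [variableChange_b₂] at hb₂
  rw [variableChange_c₄] at hc₄
  rw [variableChange_Δ] at hΔ
  simp only [C, Units.val_inv_eq_inv_val, Units.val_mk0, inv_pow] at hb₂ hc₄ hΔ
  rw [inv_mul_eq_iff_eq_mul₀ (pow_ne_zero _ hu0)] at hb₂ hc₄ hΔ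
  simp only [WeierstrassCurve.b₂] at hb₂
  refine ⟨x₂, y₂, hn2, u, b, hP2, hu0, hb0, ?_, ?_, ?_, ?_⟩
  · simp only [WeierstrassCurve.b₂]
    linear_combination hb₂
  · simp only [WeierstrassCurve.b₂]
    linear_combination hb₂ + 12 * hX2 - 12 * eA2
  · rw [hc₄]
    simp only [WeierstrassCurve.c₄, WeierstrassCurve.b₂, WeierstrassCurve.b₄]
    ring
  · rw [hΔ]
    simp only [WeierstrassCurve.Δ, WeierstrassCurve.b₂, WeierstrassCurve.b₄, WeierstrassCurve.b₆,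
      WeierstrassCurve.b₈]
    ring

end

theorem zmod_five_cases : ∀ c : ZMod 5,
    c = 0 ∨ c = 1 ∨ c = -1 ∨ c = 1 + 1 ∨ c = -(1 + 1) := by decide

theorem algEquiv_apply_of_smul_eq {V : Affine ℚ} (σ : Qb ≃ₐ[ℚ] Qb) {x y x' y' : Qb}
    {h : (V⁄Qb).toAffine.Nonsingular x y} {h' : (V⁄Qb).toAffine.Nonsingular x' y'}
    (e : σ • Affine.Point.some x y h = Affine.Point.some x' y' h' ∨
      σ • Affine.Point.some x y h = -Affine.Point.some x' y' h') : σ x = x' := by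
  rw [Affine.Point.algEquiv_smul_def, Affine.Point.map_some, Affine.Point.neg_some,
    Affine.Point.some.injEq, Affine.Point.some.injEq] at e
  rcases e with e | e <;> exact e.1

/-- A stable line in the `5`-torsion gives a rational point on the `5`-isogeny curve. -/
theorem exists_param_five (W : WeierstrassCurve ℤ) (hΔ : W.Δ ≠ 0)
    (hred : ¬ W.ModRepIsIrreducible 5) :
    ∃ m : ℚ, (m ^ 2 + 10 * m + 5) ^ 3 * (W.Δ : ℚ) = m * (W.c₄ : ℚ) ^ 3 := by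
  classical
  by_contra hno
  refine hred ?_
  set V : Affine ℚ := W.map (Int.castRingHom ℚ) with hV
  have : Fact (Nat.Prime 5) := ⟨Nat.prime_five⟩
  have hVe : V.IsElliptic := by
    rw [hV, isElliptic_iff, isUnit_iff_ne_zero, map_Δ]
    simpa using hΔ
  have hE : (V⁄Qb).IsElliptic := inferInstanceAs (V.map (algebraMap ℚ Qb)).IsElliptic
  let T := Submodule.torsionBy ℤ (Affine.Point (V⁄Qb)) ((5 : ℕ) : ℤ)
  have hcard : Nat.card T = 25 := FLTAgent.Torsion.natCard_torsionBy 5 (by norm_num)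
  have hfinite : Finite T := Nat.finite_of_card_ne_zero (by rw [hcard]; norm_num)
  have hrank : Module.finrank (ZMod 5) T = 2 := by
    have hh := Module.natCard_eq_pow_finrank (K := ZMod 5) (V := T)
    rw [hcard, Nat.card_zmod] at hh
    exact Nat.pow_right_injective (le_of_lt (by norm_num : 2 < 5)) hh.symm
  refine ⟨Finite.one_lt_card_iff_nontrivial.1 (by rw [hcard]; norm_num), fun N hN => ?_⟩
  by_contra hne
  rw [not_or] at hne
  obtain ⟨P, hP, hP0⟩ := (Submodule.ne_bot_iff N).1 hne.1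
  have hspan : Submodule.span (ZMod 5) {P} = N := by
    refine Submodule.eq_of_le_of_finrank_le ((Submodule.span_singleton_le_iff_mem _ _).2 hP) ?_
    rw [finrank_span_singleton hP0]
    have h2 : Module.finrank (ZMod 5) N < 2 := (Submodule.finrank_lt hne.2).trans_eq hrank
    omega
  have hk : ∀ σ : Qb ≃ₐ[ℚ] Qb, ∃ k : ZMod 5, k ≠ 0 ∧ σ • P = k • P := by
    intro σ
    have hmem := hN σ P hP
    rw [← hspan, Submodule.mem_span_singleton] at hmem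
    obtain ⟨k, hk⟩ := hmem
    refine ⟨k, fun h0 => hP0 ?_, hk.symm⟩
    rw [h0, zero_smul] at hk
    exact (smul_eq_zero_iff_eq σ).1 hk.symm
  obtain ⟨⟨Q, hQT⟩, rfl⟩ : ∃ Q : T, Q = P := ⟨P, rfl⟩
  rcases Q with _ | ⟨x₀, y₀, hns⟩
  · exact hP0 rfl
  have h5 : 5 • Affine.Point.some x₀ y₀ hns = 0 := by
    simpa [T, Submodule.mem_torsionBy_iff, ← natCast_zsmul] using hQT
  obtain ⟨x₂, y₂, hn, u, b, h2, hu, hb, e1, e2, e4, eΔ⟩ := exists_tate_five hns h5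
  have hperm : ∀ σ : Qb ≃ₐ[ℚ] Qb, (σ x₀ = x₀ ∧ σ x₂ = x₂) ∨ (σ x₀ = x₂ ∧ σ x₂ = x₀) := by
    intro σ
    obtain ⟨k, hk0, hk⟩ := hk σ
    have hadd : σ • Affine.Point.some x₂ y₂ hn =
        σ • Affine.Point.some x₀ y₀ hns + σ • Affine.Point.some x₀ y₀ hns := by
      rw [← h2, smul_add]
    have h4 : Affine.Point.some x₂ y₂ hn + Affine.Point.some x₂ y₂ hn =
        -Affine.Point.some x₀ y₀ hns := by
      rw [← h2]
      refine eq_neg_of_add_eq_zero_left ?_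
      calc _ = 5 • Affine.Point.some x₀ y₀ hns := by abel
        _ = 0 := h5
    have hval := congrArg Subtype.val hk
    change σ • Affine.Point.some x₀ y₀ hns = _ at hval
    rcases zmod_five_cases k with rfl | rfl | rfl | rfl | rfl
    · exact absurd rfl hk0
    · rw [one_smul] at hval
      change σ • Affine.Point.some x₀ y₀ hns = Affine.Point.some x₀ y₀ hns at hval
      rw [hval, h2] at hadd
      exact Or.inl ⟨algEquiv_apply_of_smul_eq σ (Or.inl hval),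
        algEquiv_apply_of_smul_eq σ (Or.inl hadd)⟩
    · rw [neg_smul, one_smul] at hval
      change σ • Affine.Point.some x₀ y₀ hns = -Affine.Point.some x₀ y₀ hns at hval
      rw [hval, ← neg_add, h2] at hadd
      exact Or.inl ⟨algEquiv_apply_of_smul_eq σ (Or.inr hval),
        algEquiv_apply_of_smul_eq σ (Or.inr hadd)⟩
    · rw [add_smul, one_smul] at hval
      change σ • Affine.Point.some x₀ y₀ hns =
        Affine.Point.some x₀ y₀ hns + Affine.Point.some x₀ y₀ hns at hval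
      rw [h2] at hval
      rw [hval, h4] at hadd
      exact Or.inr ⟨algEquiv_apply_of_smul_eq σ (Or.inl hval),
        algEquiv_apply_of_smul_eq σ (Or.inr hadd)⟩
    · rw [neg_smul, add_smul, one_smul] at hval
      change σ • Affine.Point.some x₀ y₀ hns =
        -(Affine.Point.some x₀ y₀ hns + Affine.Point.some x₀ y₀ hns) at hval
      rw [h2] at hval
      rw [hval, ← neg_add, h4, neg_neg] at hadd
      exact Or.inr ⟨algEquiv_apply_of_smul_eq σ (Or.inr hval),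
        algEquiv_apply_of_smul_eq σ (Or.inl hadd)⟩
  have hmap : (V⁄Qb).b₂ = (W.b₂ : Qb) ∧ (V⁄Qb).c₄ = (W.c₄ : Qb) ∧ (V⁄Qb).Δ = (W.Δ : Qb) := by
    show ((W.map (Int.castRingHom ℚ)).map (algebraMap ℚ Qb)).b₂ = _ ∧
      ((W.map (Int.castRingHom ℚ)).map (algebraMap ℚ Qb)).c₄ = _ ∧
      ((W.map (Int.castRingHom ℚ)).map (algebraMap ℚ Qb)).Δ = _
    simp
  rw [hmap.1] at e1 e2
  rw [hmap.2.1] at e4
  rw [hmap.2.2] at eΔ
  set s : Qb := (12 * x₀ + W.b₂) + (12 * x₂ + W.b₂) with hs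
  set D : Qb := ((12 * x₀ + W.b₂) - (12 * x₂ + W.b₂)) ^ 2 with hD
  have hDne : D ≠ 0 := by
    rw [hD, e1, e2, show u ^ 2 * (b ^ 2 - 6 * b + 1) - u ^ 2 * (b ^ 2 + 6 * b + 1) =
      -12 * (b * u ^ 2) by ring]
    exact pow_ne_zero 2 (mul_ne_zero (by norm_num) (mul_ne_zero hb (pow_ne_zero 2 hu)))
  obtain ⟨m, hm⟩ := FLTAgent.GalChar.exists_rat_of_fixed
    (x := (3 * s ^ 2 - 12 * (W.c₄ : Qb) - 10 * D) / D) fun σ => by
      rcases hperm σ with ⟨h0, h1⟩ | ⟨h0, h1⟩ <;>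
        simp only [hs, hD, map_div₀, map_sub, map_add, map_mul, map_pow, map_ofNat, map_intCast,
          h0, h1] <;> ring
  have hmb : algebraMap ℚ Qb m * b = b ^ 2 - 11 * b - 1 := by
    refine mul_right_cancel₀ hDne ?_
    rw [hm, mul_right_comm, div_mul_cancel₀ _ hDne, hs, hD, e1, e2, e4]
    ring
  refine hno ⟨m, (algebraMap ℚ Qb).injective ?_⟩
  simp only [map_mul, map_add, map_pow, map_ofNat, map_intCast]
  refine mul_right_cancel₀ (pow_ne_zero 6 hb) ?_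
  rw [e4, eΔ]
  set z := algebraMap ℚ Qb m
  calc (z ^ 2 + 10 * z + 5) ^ 3 * (u ^ 12 * (b ^ 5 * (b ^ 2 - 11 * b - 1))) * b ^ 6
      = ((z * b) ^ 2 + 10 * (z * b) * b + 5 * b ^ 2) ^ 3 * u ^ 12 *
          (b ^ 5 * (b ^ 2 - 11 * b - 1)) := by ring
    _ = ((b ^ 2 - 11 * b - 1) ^ 2 + 10 * (b ^ 2 - 11 * b - 1) * b + 5 * b ^ 2) ^ 3 * u ^ 12 *
          (b ^ 5 * (z * b)) := by rw [hmb]
    _ = _ := by ring

/-- **Irreducibility at five.** -/
theorem modRepIsIrreducible_five_of_dvd_c₄ (W : WeierstrassCurve ℤ) (hΔ : W.Δ ≠ 0) {q : ℕ}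
    (hq : q.Prime) (h4 : (q : ℤ) ∣ W.c₄) (hgood : ¬ (q : ℤ) ∣ W.Δ)
    (hns : ¬ IsSquare (5 : ZMod q)) : W.ModRepIsIrreducible 5 := by
  have : Fact q.Prime := ⟨hq⟩
  by_contra hred
  obtain ⟨m, hm⟩ := exists_param_five W hΔ hred
  have h2 : (2 : ZMod q) ≠ 0 := by
    intro h
    have h' : q = 2 := (Nat.prime_dvd_prime_iff_eq hq Nat.prime_two).1
      ((ZMod.natCast_eq_zero_iff 2 q).1 (by exact_mod_cast h))
    subst h'
    exact hns ⟨1, (mul_one (1 : ZMod 2)).symm ▸ rfl⟩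
  have hkey : (m.num ^ 2 + 10 * m.num * m.den + 5 * (m.den : ℤ) ^ 2) ^ 3 * W.Δ =
      m.num * (m.den : ℤ) ^ 5 * W.c₄ ^ 3 := by
    have hden : (m.den : ℚ) ≠ 0 := Nat.cast_ne_zero.2 m.den_nz
    have hnum : (m.num : ℚ) = m * m.den := by rw [Rat.mul_den_eq_num]
    refine (Int.cast_inj (α := ℚ)).1 ?_
    push_cast
    rw [hnum]
    linear_combination (m.den : ℚ) ^ 6 * hm
  have h4' : (W.c₄ : ZMod q) = 0 := (ZMod.intCast_zmod_eq_zero_iff_dvd _ q).2 h4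
  have hd' : (W.Δ : ZMod q) ≠ 0 := fun h => hgood ((ZMod.intCast_zmod_eq_zero_iff_dvd _ q).1 h)
  have hmod := congrArg (Int.cast : ℤ → ZMod q) hkey
  push_cast at hmod
  rw [h4', zero_pow (by norm_num : (3 : ℕ) ≠ 0), mul_zero, mul_eq_zero, or_iff_left hd',
    pow_eq_zero_iff (by norm_num : (3 : ℕ) ≠ 0)] at hmod
  by_cases he : (m.den : ZMod q) = 0
  · rw [he] at hmod
    have hn : (m.num : ZMod q) = 0 := by simpa using hmod
    refine hq.not_dvd_one ?_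
    rw [← (m.reduced : Nat.gcd m.num.natAbs m.den = 1)]
    exact Nat.dvd_gcd (Int.natCast_dvd.1 ((ZMod.intCast_zmod_eq_zero_iff_dvd _ q).1 hn))
      ((ZMod.natCast_eq_zero_iff _ q).1 he)
  · refine hns ⟨((m.num : ZMod q) + 5 * m.den) / (2 * m.den), ?_⟩
    rw [div_mul_div_comm, eq_div_iff (mul_ne_zero (mul_ne_zero h2 he) (mul_ne_zero h2 he))]
    linear_combination -hmod

end FLTAgent.Hesse
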