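import Fermat.Agent.Switch35.Forms
import Fermat.Agent.Switch.Short
import Fermat.Agent.WeilPairing.FrobeniusTrace
import Fermat.Agent.Frobenius.Places

/-!
# Members of the Hessian family have the same 3-torsion

The Moebius map on the abscissae extends to a linear map of the plane fixing the point at infinity,
so it preserves lines and gives a Galois-equivariant isomorphism of the groups of points of order 3.
-/

set_option autoImplicit false
set_option linter.unusedSectionVars false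

noncomputable section

namespace FLTAgent.Hesse

open WeierstrassCurve

section Points

variable {K : Type*} [Field K]

/-- The image of an abscissa. -/
def imX (c d x y X : K) : K := (3 * numA c d x y * X + 9 * numB c d x y) / (y * X - 3 * x)

/-- The image of an ordinate. -/
def imY (c d x y X Y : K) : K := 3 * G c d x y * Y / (y * X - 3 * x)

theorem moebius_quartic {R : Type*} [CommRing R] (c d x y θ : R) :
    G (C4 c d x y) (C6 c d x y) (numA c d x y * θ + numB c d x y) (y * θ - x) =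
      G c d x y ^ 3 * G c d θ 1 := by
  unfold C4 C6 G numA numB; ring

theorem det_moebius (c d x y : K) : numA c d x y * x + numB c d x y * y = -G c d x y := by
  unfold G numA numB; ring

/-- Three distinct roots of `X³ + A X + B - (L X + M)²` add up to `L²`. -/
theorem sum_roots_eq {A B L M x₁ x₂ x₃ : K} (h₁ : (L * x₁ + M) ^ 2 = x₁ ^ 3 + A * x₁ + B)
    (h₂ : (L * x₂ + M) ^ 2 = x₂ ^ 3 + A * x₂ + B) (h₃ : (L * x₃ + M) ^ 2 = x₃ ^ 3 + A * x₃ + B)
    (n₁₂ : x₁ ≠ x₂) (n₁₃ : x₁ ≠ x₃) (n₂₃ : x₂ ≠ x₃) : x₃ = L ^ 2 - x₁ - x₂ := by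
  have e₁₂ : x₁ ^ 2 + x₁ * x₂ + x₂ ^ 2 - L ^ 2 * (x₁ + x₂) + A - 2 * L * M = 0 :=
    (mul_eq_zero.1 (by linear_combination -h₁ + h₂ :
      (x₁ - x₂) * (x₁ ^ 2 + x₁ * x₂ + x₂ ^ 2 - L ^ 2 * (x₁ + x₂) + A - 2 * L * M) = 0)).resolve_left
      (sub_ne_zero.2 n₁₂)
  have e₁₃ : x₁ ^ 2 + x₁ * x₃ + x₃ ^ 2 - L ^ 2 * (x₁ + x₃) + A - 2 * L * M = 0 :=
    (mul_eq_zero.1 (by linear_combination -h₁ + h₃ :
      (x₁ - x₃) * (x₁ ^ 2 + x₁ * x₃ + x₃ ^ 2 - L ^ 2 * (x₁ + x₃) + A - 2 * L * M) = 0)).resolve_left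
      (sub_ne_zero.2 n₁₃)
  have h := (mul_eq_zero.1 (by linear_combination e₁₂ - e₁₃ :
      (x₂ - x₃) * (x₁ + x₂ + x₃ - L ^ 2) = 0)).resolve_left (sub_ne_zero.2 n₂₃)
  linear_combination h

/-- `E` is the short curve with invariants `c`, `d`. -/
structure IsShortOf (E : Affine K) (c d : K) : Prop where
  a1 : E.a₁ = 0
  a2 : E.a₂ = 0
  a3 : E.a₃ = 0
  a4 : E.a₄ = -27 * c
  a6 : E.a₆ = -54 * d

variable [CharZero K] {E E' : Affine K} {c d x y : K}

theorem IsShortOf.negY_eq (hE : IsShortOf E c d) (X Y : K) : E.negY X Y = -Y := by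
  simp [Affine.negY, hE.a1, hE.a3]

theorem IsShortOf.equation_eq (hE : IsShortOf E c d) {X Y : K} (h : E.Equation X Y) :
    Y ^ 2 = X ^ 3 + -27 * c * X + -54 * d := by
  rw [Affine.equation_iff, hE.a1, hE.a2, hE.a3, hE.a4, hE.a6] at h
  linear_combination h

theorem den_ne (hG : G c d x y ≠ 0) {X : K} (hX : G c d (X / 3) 1 = 0) :
    y * X - 3 * x ≠ 0 := fun h => hG (by
  rw [show x = y * (X / 3) by linear_combination -h / 3]
  have e := G_smul c d (X / 3) 1 y
  rw [mul_one, hX, mul_zero] at e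
  exact e)

theorem IsShortOf.equation_im (hE : IsShortOf E c d)
    (hE' : IsShortOf E' (C4 c d x y) (C6 c d x y)) (hG : G c d x y ≠ 0) {X Y : K}
    (h : E.Equation X Y) (hX : G c d (X / 3) 1 = 0) :
    E'.Equation (imX c d x y X) (imY c d x y X Y) := by
  have hD := den_ne hG hX
  have hY := hE.equation_eq h
  rw [Affine.equation_iff, hE'.a1, hE'.a2, hE'.a3, hE'.a4, hE'.a6]
  obtain ⟨θ, rfl⟩ : ∃ θ, X = 3 * θ := ⟨X / 3, by ring⟩
  rw [mul_div_cancel_left₀ θ (by norm_num : (3 : K) ≠ 0)] at hX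
  have hm : y * θ - x ≠ 0 := fun e => hD (by linear_combination 3 * e)
  have hmo := moebius c d x y θ
  rw [hX, mul_zero, sub_zero] at hmo
  rw [show imX c d x y (3 * θ) = 3 * (numA c d x y * θ + numB c d x y) / (y * θ - x) by
      rw [imX, div_eq_div_iff hD hm]; ring,
    show imY c d x y (3 * θ) Y = G c d x y * Y / (y * θ - x) by
      rw [imY, div_eq_div_iff hD hm]; ring]
  set m := y * θ - x with hmdef
  set N := numA c d x y * θ + numB c d x y
  field_simp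
  linear_combination (G c d x y ^ 2 * m) * hY - 27 * hmo

theorem quartic_im (hG : G c d x y ≠ 0) {X : K} (hX : G c d (X / 3) 1 = 0) :
    G (C4 c d x y) (C6 c d x y) (imX c d x y X / 3) 1 = 0 := by
  have hD := den_ne hG hX
  obtain ⟨θ, rfl⟩ : ∃ θ, X = 3 * θ := ⟨X / 3, by ring⟩
  rw [mul_div_cancel_left₀ θ (by norm_num : (3 : K) ≠ 0)] at hX
  have hm : y * θ - x ≠ 0 := fun e => hD (by linear_combination 3 * e)
  have e := G_smul (C4 c d x y) (C6 c d x y)
    ((numA c d x y * θ + numB c d x y) / (y * θ - x)) 1 (y * θ - x)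
  rw [mul_one, mul_div_cancel₀ _ hm, moebius_quartic, hX, mul_zero] at e
  rw [show imX c d x y (3 * θ) / 3 = (numA c d x y * θ + numB c d x y) / (y * θ - x) by
    rw [imX, div_div, div_eq_div_iff (mul_ne_zero hD (by norm_num)) hm]; ring]
  exact (mul_eq_zero.1 e.symm).resolve_left (pow_ne_zero 4 hm)

theorem imX_injective (hG : G c d x y ≠ 0) {X₁ X₂ : K} (h₁ : G c d (X₁ / 3) 1 = 0)
    (h₂ : G c d (X₂ / 3) 1 = 0) (h : imX c d x y X₁ = imX c d x y X₂) : X₁ = X₂ := by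
  rw [imX, imX, div_eq_div_iff (den_ne hG h₁) (den_ne hG h₂)] at h
  have e : 9 * G c d x y * (X₁ - X₂) = 0 := by
    linear_combination h + 9 * (X₁ - X₂) * det_moebius c d x y
  exact sub_eq_zero.1
    ((mul_eq_zero.1 e).resolve_left (mul_ne_zero (by norm_num) hG))

variable [DecidableEq K]

theorem IsShortOf.three_zsmul_iff (hE : IsShortOf E c d) {X Y : K} (h : E.Nonsingular X Y) :
    (3 : ℤ) • Affine.Point.some X Y h = 0 ↔ G c d (X / 3) 1 = 0 := by
  rw [FLTAgent.Torsion.zsmul_some_eq_zero_iff h, ΨSq_three, Polynomial.eval_pow,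
    pow_eq_zero_iff two_ne_zero]
  have e : Polynomial.eval X E.Ψ₃ = 243 * G c d (X / 3) 1 := by
    simp [WeierstrassCurve.Ψ₃, WeierstrassCurve.b₂, WeierstrassCurve.b₄, WeierstrassCurve.b₆,
      WeierstrassCurve.b₈, hE.a1, hE.a2, hE.a3, hE.a4, hE.a6, G]
    ring
  rw [e, mul_eq_zero]
  exact or_iff_right (by norm_num)

/-- Corresponding points. -/
def Rel (c d x y : K) (P : E.Point) (P' : E'.Point) : Prop :=
  (P = 0 ∧ P' = 0) ∨ ∃ (X Y : K) (h : E.Nonsingular X Y)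
    (h' : E'.Nonsingular (imX c d x y X) (imY c d x y X Y)),
      P = .some X Y h ∧ P' = .some _ _ h'

theorem rel_unique {P : E.Point} {P' Q' : E'.Point} (h : Rel c d x y P P')
    (k : Rel c d x y P Q') : P' = Q' := by
  rcases h with ⟨hP, rfl⟩ | ⟨X, Y, hn, hn', hP, rfl⟩ <;>
    rcases k with ⟨kP, rfl⟩ | ⟨X₁, Y₁, kn, kn', kP, rfl⟩
  · rfl
  · exact absurd (kP.symm.trans hP) (Affine.Point.some_ne_zero _)
  · exact absurd (hP.symm.trans kP) (Affine.Point.some_ne_zero _)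
  · obtain ⟨rfl, rfl⟩ := Affine.Point.some.inj (hP.symm.trans kP)
    rfl

theorem rel_eq_zero {P : E.Point} (h : Rel c d x y P (0 : E'.Point)) : P = 0 := by
  rcases h with ⟨hP, -⟩ | ⟨X, Y, hn, hn', hP, e⟩
  · exact hP
  · exact absurd e.symm (Affine.Point.some_ne_zero _)

variable [E'.IsElliptic]

theorem rel_neg (hE : IsShortOf E c d) (hE' : IsShortOf E' (C4 c d x y) (C6 c d x y))
    {P : E.Point} {P' : E'.Point} (h : Rel c d x y P P') : Rel c d x y (-P) (-P') := by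
  rcases h with ⟨rfl, rfl⟩ | ⟨X, Y, hn, hn', rfl, rfl⟩
  · exact Or.inl ⟨neg_zero, neg_zero⟩
  · have e : E'.negY (imX c d x y X) (imY c d x y X Y) = imY c d x y X (E.negY X Y) := by
      rw [hE.negY_eq, hE'.negY_eq, imY, imY, mul_neg, neg_div]
    refine Or.inr ⟨X, E.negY X Y, (Affine.nonsingular_neg ..).2 hn,
      e ▸ (Affine.nonsingular_neg ..).2 hn', Affine.Point.neg_some hn, ?_⟩
    rw [Affine.Point.neg_some hn', Affine.Point.some.injEq]
    exact ⟨rfl, e⟩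

theorem exists_rel (hE : IsShortOf E c d) (hE' : IsShortOf E' (C4 c d x y) (C6 c d x y))
    (hG : G c d x y ≠ 0) {P : E.Point} (hP : (3 : ℤ) • P = 0) :
    ∃ P' : E'.Point, (3 : ℤ) • P' = 0 ∧ Rel c d x y P P' := by
  rcases P with _ | ⟨X, Y, hn⟩
  · exact ⟨0, smul_zero _, Or.inl ⟨rfl, rfl⟩⟩
  · have hX := (hE.three_zsmul_iff hn).1 hP
    have hn' := Affine.equation_iff_nonsingular.1 (hE.equation_im hE' hG hn.1 hX)
    exact ⟨.some _ _ hn', (hE'.three_zsmul_iff hn').2 (quartic_im hG hX),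
      Or.inr ⟨X, Y, hn, hn', rfl, rfl⟩⟩

/-- Corresponding points add up to corresponding points. -/
theorem rel_add (hE : IsShortOf E c d) (hE' : IsShortOf E' (C4 c d x y) (C6 c d x y))
    (hG : G c d x y ≠ 0) {P Q : E.Point} {P' Q' : E'.Point} (hP : (3 : ℤ) • P = 0)
    (hQ : (3 : ℤ) • Q = 0) (hP' : (3 : ℤ) • P' = 0) (h : Rel c d x y P P')
    (k : Rel c d x y Q Q') : Rel c d x y (P + Q) (P' + Q') := by
  rcases h with ⟨rfl, rfl⟩ | ⟨X₁, Y₁, n₁, n₁', eP, eP'⟩
  · rwa [zero_add, zero_add]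
  rcases k with ⟨rfl, rfl⟩ | ⟨X₂, Y₂, n₂, n₂', eQ, eQ'⟩
  · rw [add_zero, add_zero]
    exact Or.inr ⟨X₁, Y₁, n₁, n₁', eP, eP'⟩
  have hrelP : Rel c d x y P P' := Or.inr ⟨X₁, Y₁, n₁, n₁', eP, eP'⟩
  have hrelQ : Rel c d x y Q Q' := Or.inr ⟨X₂, Y₂, n₂, n₂', eQ, eQ'⟩
  rcases eq_or_ne X₁ X₂ with hX | hX
  · have hPQ : P = Q ∨ P = -Q := by rw [eP, eQ]; exact Affine.Point.X_eq_iff.1 hX
    rcases hPQ with rfl | rfl
    · obtain rfl := rel_unique hrelP hrelQ
      rw [show P + P = -P from eq_neg_of_add_eq_zero_left (by rw [← hP]; abel),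
        show P' + P' = -P' from eq_neg_of_add_eq_zero_left (by rw [← hP']; abel)]
      exact rel_neg hE hE' hrelP
    · obtain rfl := rel_unique (rel_neg hE hE' hrelQ) hrelP
      rw [neg_add_cancel, neg_add_cancel]
      exact Or.inl ⟨rfl, rfl⟩
  subst eP eP' eQ eQ'
  have g₁ := (hE.three_zsmul_iff n₁).1 hP
  have g₂ := (hE.three_zsmul_iff n₂).1 hQ
  set lam := E.slope X₁ X₂ Y₁ Y₂ with hlam
  set X₃ := E.addX X₁ X₂ lam with hX₃
  set Y₃ := E.negAddY X₁ X₂ Y₁ lam with hY₃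
  have hsum : Affine.Point.some X₁ Y₁ n₁ + .some X₂ Y₂ n₂ =
      .some X₃ (E.addY X₁ X₂ Y₁ lam) (Affine.nonsingular_add n₁ n₂ fun hxy => hX hxy.left) :=
    Affine.Point.add_of_X_ne hX
  have g₃ : G c d (X₃ / 3) 1 = 0 :=
    (hE.three_zsmul_iff _).1 (by rw [← hsum, smul_add, hP, hQ, add_zero])
  have n₃ : E.Nonsingular X₃ Y₃ := Affine.nonsingular_negAdd n₁ n₂ fun hxy => hX hxy.left
  -- the third point is a new one
  have n13 : X₁ ≠ X₃ := fun e => by
    rcases (Affine.Point.X_eq_iff (h₁ := n₁)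
      (h₂ := Affine.nonsingular_add n₁ n₂ fun hxy => hX hxy.left)).1 e with e' | e' <;>
      rw [← hsum] at e'
    · exact Affine.Point.some_ne_zero _ (left_eq_add.1 e')
    · have e'' : Affine.Point.some X₂ Y₂ n₂ = Affine.Point.some X₁ Y₁ n₁ := by
        have : (3 : ℤ) • Affine.Point.some X₁ Y₁ n₁ = 0 := hP
        calc Affine.Point.some X₂ Y₂ n₂
            = -(Affine.Point.some X₁ Y₁ n₁) - Affine.Point.some X₁ Y₁ n₁ +
              ((Affine.Point.some X₁ Y₁ n₁ + .some X₂ Y₂ n₂) + Affine.Point.some X₁ Y₁ n₁) := by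
              abel
          _ = -(Affine.Point.some X₁ Y₁ n₁) - Affine.Point.some X₁ Y₁ n₁ + 0 := by
              congr 1
              conv_lhs => arg 2; rw [e']
              exact add_neg_cancel _
          _ = Affine.Point.some X₁ Y₁ n₁ := by
              conv_rhs => rw [← zero_add (Affine.Point.some X₁ Y₁ n₁), ← neg_eq_zero.2 this]
              abel
      exact hX (Affine.Point.some.inj e'').1.symm
  have n23 : X₂ ≠ X₃ := fun e => by
    rcases (Affine.Point.X_eq_iff (h₁ := n₂)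
      (h₂ := Affine.nonsingular_add n₁ n₂ fun hxy => hX hxy.left)).1 e with e' | e' <;>
      rw [← hsum] at e'
    · exact Affine.Point.some_ne_zero _ (right_eq_add.1 e')
    · have e'' : Affine.Point.some X₁ Y₁ n₁ = Affine.Point.some X₂ Y₂ n₂ := by
        have : (3 : ℤ) • Affine.Point.some X₂ Y₂ n₂ = 0 := hQ
        calc Affine.Point.some X₁ Y₁ n₁
            = -(Affine.Point.some X₂ Y₂ n₂) - Affine.Point.some X₂ Y₂ n₂ +
              ((Affine.Point.some X₁ Y₁ n₁ + .some X₂ Y₂ n₂) + Affine.Point.some X₂ Y₂ n₂) := by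
              abel
          _ = -(Affine.Point.some X₂ Y₂ n₂) - Affine.Point.some X₂ Y₂ n₂ + 0 := by
              congr 1
              conv_lhs => arg 2; rw [e']
              exact add_neg_cancel _
          _ = Affine.Point.some X₂ Y₂ n₂ := by
              conv_rhs => rw [← zero_add (Affine.Point.some X₂ Y₂ n₂), ← neg_eq_zero.2 this]
              abel
      exact hX (Affine.Point.some.inj e'').1
  -- the line and its image
  have hlam' : lam * (X₁ - X₂) = Y₁ - Y₂ := by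
    rw [hlam, Affine.slope_of_X_ne hX, div_mul_cancel₀ _ (sub_ne_zero.2 hX)]
  set b := Y₁ - lam * X₁ with hb
  have l₂ : Y₂ = lam * X₂ + b := by rw [hb]; linear_combination hlam'
  have l₃ : Y₃ = lam * X₃ + b := by rw [hY₃, hb, Affine.negAddY, ← hX₃]; ring
  set L := -(3 * x * lam + y * b) / 3 with hL
  set M' := numA c d x y * b - 3 * numB c d x y * lam with hM'
  have line : ∀ {X Y : K}, G c d (X / 3) 1 = 0 → Y = lam * X + b →
      imY c d x y X Y = L * imX c d x y X + M' := fun {X Y} hX' hY' => by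
    have hD := den_ne hG hX'
    rw [imY, imX, hY', mul_div_assoc', div_add' _ _ _ hD]
    congr 1
    rw [hL, hM']
    linear_combination (lam * X + b) * 3 * det_moebius c d x y
  have i₁ : imY c d x y X₁ Y₁ = L * imX c d x y X₁ + M' := line g₁ (by rw [hb]; ring)
  have i₂ : imY c d x y X₂ Y₂ = L * imX c d x y X₂ + M' := line g₂ l₂
  have i₃ : imY c d x y X₃ Y₃ = L * imX c d x y X₃ + M' := line g₃ l₃
  have n₃' : E'.Nonsingular (imX c d x y X₃) (imY c d x y X₃ Y₃) :=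
    Affine.equation_iff_nonsingular.1 (hE.equation_im hE' hG n₃.1 g₃)
  have m12 : imX c d x y X₁ ≠ imX c d x y X₂ := fun e => hX (imX_injective hG g₁ g₂ e)
  have q₁ := hE'.equation_eq n₁'.1
  have q₂ := hE'.equation_eq n₂'.1
  have q₃ := hE'.equation_eq n₃'.1
  rw [i₁] at q₁
  rw [i₂] at q₂
  rw [i₃] at q₃
  have hsx := sum_roots_eq q₁ q₂ q₃ m12 (fun e => n13 (imX_injective hG g₁ g₃ e))
    fun e => n23 (imX_injective hG g₂ g₃ e)
  have hslope : E'.slope (imX c d x y X₁) (imX c d x y X₂) (imY c d x y X₁ Y₁)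
      (imY c d x y X₂ Y₂) = L := by
    rw [Affine.slope_of_X_ne m12, i₁, i₂, div_eq_iff (sub_ne_zero.2 m12)]
    ring
  have hax : E'.addX (imX c d x y X₁) (imX c d x y X₂) L = imX c d x y X₃ := by
    rw [Affine.addX, hE'.a1, hE'.a2, hsx]; ring
  have hay : E'.addY (imX c d x y X₁) (imX c d x y X₂) (imY c d x y X₁ Y₁) L =
      imY c d x y X₃ (E.negY X₃ Y₃) := by
    rw [Affine.addY, Affine.negAddY, hax, hE'.negY_eq, hE.negY_eq,
      show imY c d x y X₃ (-Y₃) = -imY c d x y X₃ Y₃ by rw [imY, imY, mul_neg, neg_div], i₁, i₃]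
    ring
  have n₄' : E'.Nonsingular (imX c d x y X₃) (imY c d x y X₃ (E.negY X₃ Y₃)) := by
    rw [← hax, ← hay, ← hslope]
    exact Affine.nonsingular_add n₁' n₂' fun hxy => m12 hxy.left
  refine Or.inr ⟨X₃, E.negY X₃ Y₃, (Affine.nonsingular_neg ..).2 n₃, n₄', hsum, ?_⟩
  rw [Affine.Point.add_of_X_ne m12, Affine.Point.some.injEq, hslope]
  exact ⟨hax, hay⟩

/-- The isomorphism of 3-torsion. -/
theorem exists_equiv_three [IsAlgClosed K] [E.IsElliptic] (hE : IsShortOf E c d)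
    (hE' : IsShortOf E' (C4 c d x y) (C6 c d x y)) (hG : G c d x y ≠ 0) :
    ∃ e : Submodule.torsionBy ℤ E.Point ((3 : ℕ) : ℤ) ≃+
        Submodule.torsionBy ℤ E'.Point ((3 : ℕ) : ℤ),
      ∀ P : Submodule.torsionBy ℤ E.Point ((3 : ℕ) : ℤ),
        Rel c d x y (P : E.Point) (e P : E'.Point) := by
  have h3 : ∀ {F : Affine K} (P : Submodule.torsionBy ℤ F.Point ((3 : ℕ) : ℤ)),
      (3 : ℤ) • (P : F.Point) = 0 := fun P => (Submodule.mem_torsionBy_iff _ _).1 P.2
  choose f hf hrel using fun P : Submodule.torsionBy ℤ E.Point ((3 : ℕ) : ℤ) =>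
    exists_rel hE hE' hG (h3 P)
  let φ : Submodule.torsionBy ℤ E.Point ((3 : ℕ) : ℤ) →+
      Submodule.torsionBy ℤ E'.Point ((3 : ℕ) : ℤ) :=
    AddMonoidHom.mk' (fun P => ⟨f P, (Submodule.mem_torsionBy_iff _ _).2 (hf P)⟩) fun P Q =>
      Subtype.ext (rel_unique (hrel (P + Q))
        (rel_add hE hE' hG (h3 P) (h3 Q) (hf P) (hrel P) (hrel Q)))
  have hinj : Function.Injective φ := by
    rw [injective_iff_map_eq_zero]
    intro P hP
    have e : f P = 0 := congrArg Subtype.val hP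
    exact Subtype.ext (rel_eq_zero (e ▸ hrel P))
  have hc : ∀ (F : Affine K) [F.IsElliptic],
      Nat.card (Submodule.torsionBy ℤ F.Point ((3 : ℕ) : ℤ)) = 3 ^ 2 := fun F _ =>
    FLTAgent.Torsion.natCard_torsionBy 3 (by norm_num)
  have : Finite (Submodule.torsionBy ℤ E'.Point ((3 : ℕ) : ℤ)) :=
    Nat.finite_of_card_ne_zero (by rw [hc E']; norm_num)
  exact ⟨AddEquiv.ofBijective φ
    ((Nat.bijective_iff_injective_and_card _).2 ⟨hinj, (hc E).trans (hc E').symm⟩), hrel⟩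

end Points

section Rational

open FLTAgent.Switch (shortQ pointCast pointCast_some toShort toShort_smul isElliptic_shortQ)

local notation "Qb" => AlgebraicClosure ℚ

/-- The 3-torsion of a curve over `ℚ`. -/
abbrev Tors3 (W : Affine ℚ) : Submodule ℤ (Affine.Point (W⁄Qb)) :=
  Submodule.torsionBy ℤ (Affine.Point (W⁄Qb)) ((3 : ℕ) : ℤ)

/-- A Galois-equivariant isomorphism of 3-torsion. -/
def SameThree (W₁ W₂ : Affine ℚ) : Prop :=
  ∃ e : Tors3 W₁ ≃+ Tors3 W₂, ∀ (σ : Qb ≃ₐ[ℚ] Qb) (P : Tors3 W₁), e (σ • P) = σ • e P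

theorem SameThree.symm {W₁ W₂ : Affine ℚ} (h : SameThree W₁ W₂) : SameThree W₂ W₁ := by
  obtain ⟨e, he⟩ := h
  refine ⟨e.symm, fun σ P => e.injective ?_⟩
  rw [AddEquiv.apply_symm_apply, he, AddEquiv.apply_symm_apply]

theorem SameThree.trans {W₁ W₂ W₃ : Affine ℚ} (h : SameThree W₁ W₂) (h' : SameThree W₂ W₃) :
    SameThree W₁ W₃ := by
  obtain ⟨e, he⟩ := h
  obtain ⟨f, hf⟩ := h'
  exact ⟨e.trans f, fun σ P => by simp [he, hf]⟩

theorem sameThree_of_pointEquiv {W₁ W₂ : Affine ℚ}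
    (e : Affine.Point (W₁⁄Qb) ≃+ Affine.Point (W₂⁄Qb))
    (he : ∀ (σ : Qb ≃ₐ[ℚ] Qb) (P : Affine.Point (W₁⁄Qb)), e (σ • P) = σ • e P) :
    SameThree W₁ W₂ := by
  have h1 : ∀ P : Tors3 W₁, e P ∈ Tors3 W₂ := fun P => by
    have := P.2
    rw [Submodule.mem_torsionBy_iff] at this ⊢
    rw [← map_zsmul, this, map_zero]
  have h2 : ∀ P : Tors3 W₂, e.symm P ∈ Tors3 W₁ := fun P => by
    have := P.2
    rw [Submodule.mem_torsionBy_iff] at this ⊢
    rw [← map_zsmul, this, map_zero]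
  refine ⟨{ toFun := fun P => ⟨e P, h1 P⟩
            invFun := fun P => ⟨e.symm P, h2 P⟩
            left_inv := fun P => Subtype.ext (e.symm_apply_apply _)
            right_inv := fun P => Subtype.ext (e.apply_symm_apply _)
            map_add' := fun P Q => Subtype.ext (map_add e _ _) }, fun σ P => ?_⟩
  exact Subtype.ext (he σ P)

theorem sameThree_smul (C : VariableChange ℚ) (W W' : Affine ℚ) (h : C • W = W') :
    SameThree W W' := by
  have hh : C.map (algebraMap ℚ Qb) • (W⁄Qb) = (W'⁄Qb) := by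
    subst h; exact map_variableChange _ _ _
  refine sameThree_of_pointEquiv
    ((FLTAgent.Reduction.vcEquiv (C.map (algebraMap ℚ Qb)) (W⁄Qb)).trans (pointCast hh))
    fun σ P => ?_
  rcases P with _ | ⟨X, Y, hn⟩
  · show ((FLTAgent.Reduction.vcEquiv _ _).trans (pointCast hh)) (σ • 0) =
      σ • ((FLTAgent.Reduction.vcEquiv _ _).trans (pointCast hh)) 0
    rw [smul_zero, map_zero, smul_zero]
  · rw [Affine.Point.algEquiv_smul_def, Affine.Point.map_some]
    simp only [AddEquiv.trans_apply, FLTAgent.Reduction.vcEquiv_some, pointCast_some]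
    rw [Affine.Point.algEquiv_smul_def, Affine.Point.map_some, Affine.Point.some.injEq]
    constructor <;>
      simp [FLTAgent.Reduction.vcX, FLTAgent.Reduction.vcY, VariableChange.map]

/-- The integral model and its short form have the same 3-torsion. -/
theorem sameThree_short (W : WeierstrassCurve ℤ) :
    SameThree (W.map (Int.castRingHom ℚ)) (shortQ (-27 * (W.c₄ : ℚ)) (-54 * (W.c₆ : ℚ))) := by
  refine sameThree_smul (toShort (W.map (Int.castRingHom ℚ))) _ _ ?_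
  rw [toShort_smul, map_c₄, map_c₆]
  rfl

theorem galoisTrace_eq_of_sameThree {W₁ W₂ : Affine ℚ} (h : SameThree W₁ W₂)
    (σ : Qb ≃ₐ[ℚ] Qb) :
    Affine.Point.galoisTrace ℚ (K := Qb) W₁ 3 σ = Affine.Point.galoisTrace ℚ (K := Qb) W₂ 3 σ := by
  obtain ⟨e, he⟩ := h
  let el : Tors3 W₁ ≃ₗ[ZMod 3] Tors3 W₂ :=
    { e.toAddMonoidHom.toZModLinearMap 3 with
      invFun := e.invFun
      left_inv := e.left_inv
      right_inv := e.right_inv }
  rw [Affine.Point.galoisTrace_def, Affine.Point.galoisTrace_def,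
    ← LinearMap.trace_conj' (Affine.Point.galoisRepModuleEnd ℚ W₁ 3 σ) el]
  congr 1
  refine LinearMap.ext fun P => ?_
  simp only [LinearEquiv.conj_apply, LinearMap.coe_comp, Function.comp_apply,
    LinearEquiv.coe_coe, Affine.Point.galoisRepModuleEnd_apply]
  show e (σ • e.symm P) = σ • P
  rw [he, AddEquiv.apply_symm_apply]

/-- Members of the family have the same 3-torsion. -/
theorem sameThree_member {c d x y : ℚ} (hΔ : c ^ 3 - d ^ 2 ≠ 0) (hG : G c d x y ≠ 0) :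
    SameThree (shortQ (-27 * c) (-54 * d))
      (shortQ (-27 * C4 c d x y) (-54 * C6 c d x y)) := by
  have hΔ' : ∀ {a b : ℚ}, a ^ 3 - b ^ 2 ≠ 0 →
      4 * (-27 * a) ^ 3 + 27 * (-54 * b) ^ 2 ≠ 0 := fun {a b} h e =>
    h (by linear_combination -e / 78732)
  have := isElliptic_shortQ (hΔ' hΔ)
  have := isElliptic_shortQ (hΔ' (show C4 c d x y ^ 3 - C6 c d x y ^ 2 ≠ 0 by
    rw [syzygy]; exact mul_ne_zero hΔ (pow_ne_zero 3 hG)))
  have : ((shortQ (-27 * c) (-54 * d))⁄Qb).IsElliptic :=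
    inferInstanceAs ((shortQ _ _).map (algebraMap ℚ Qb)).IsElliptic
  have : ((shortQ (-27 * C4 c d x y) (-54 * C6 c d x y))⁄Qb).IsElliptic :=
    inferInstanceAs ((shortQ _ _).map (algebraMap ℚ Qb)).IsElliptic
  set φ := algebraMap ℚ Qb
  have hE : IsShortOf ((shortQ (-27 * c) (-54 * d))⁄Qb) (φ c) (φ d) := by
    constructor <;> simp [shortQ, φ]
  have hE' : IsShortOf ((shortQ (-27 * C4 c d x y) (-54 * C6 c d x y))⁄Qb)
      (C4 (φ c) (φ d) (φ x) (φ y)) (C6 (φ c) (φ d) (φ x) (φ y)) := by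
    rw [← map_C4, ← map_C6]
    constructor <;> simp [shortQ, φ]
  obtain ⟨e, he⟩ := exists_equiv_three hE hE'
    (by rw [← map_G]; exact (_root_.map_ne_zero φ).2 hG)
  refine ⟨e, fun σ P => Subtype.ext (rel_unique (he (σ • P)) ?_)⟩
  show Rel _ _ _ _ (σ • P.1) (σ • (e P).1)
  rcases he P with ⟨h1, h2⟩ | ⟨X, Y, hn, hn', h1, h2⟩
  · exact Or.inl ⟨by rw [h1]; exact smul_zero σ, by rw [h2]; exact smul_zero σ⟩
  · have eX : σ (imX (φ c) (φ d) (φ x) (φ y) X) = imX (φ c) (φ d) (φ x) (φ y) (σ X) := by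
      change (σ : Qb →+* Qb) _ = _
      simp [imX, numA, numB, φ, map_ofNat]
    have eY : σ (imY (φ c) (φ d) (φ x) (φ y) X Y) =
        imY (φ c) (φ d) (φ x) (φ y) (σ X) (σ Y) := by
      change (σ : Qb →+* Qb) _ = _
      simp [imY, G, φ, map_ofNat]
    rw [h1, h2, Affine.Point.algEquiv_smul_def, Affine.Point.map_some,
      Affine.Point.algEquiv_smul_def, Affine.Point.map_some]
    refine Or.inr ⟨σ X, σ Y, _, ?_, rfl, ?_⟩
    · rw [← eX, ← eY]
      exact (Affine.baseChange_nonsingular _ (σ : Qb →ₐ[ℚ] Qb).injective _ _).2 hn'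
    · rw [Affine.Point.some.injEq]
      exact ⟨eX, eY⟩

/-- **Members of the family have the same traces modulo 3.** -/
theorem dvd_apOfModel_sub_of_member {W W' : WeierstrassCurve ℤ} (hΔ : W.Δ ≠ 0) {x y : ℤ}
    (hG : G W.c₄ W.c₆ x y ≠ 0) (h4 : W'.c₄ = C4 W.c₄ W.c₆ x y) (h6 : W'.c₆ = C6 W.c₄ W.c₆ x y)
    {l : ℕ} (hl : l.Prime) (hW : W.IsGoodPrimeFor l) (hW' : W'.IsGoodPrimeFor l) (h3 : l ≠ 3) :
    (3 : ℤ) ∣ W'.apOfModel l - W.apOfModel l := by
  have hc : (W.c₄ : ℚ) ^ 3 - (W.c₆ : ℚ) ^ 2 ≠ 0 := by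
    have e : (W.c₄ : ℤ) ^ 3 - W.c₆ ^ 2 ≠ 0 := by
      rw [← W.c_relation]; exact mul_ne_zero (by norm_num) hΔ
    exact_mod_cast e
  set ψ := Int.castRingHom ℚ
  have hG' : G (W.c₄ : ℚ) W.c₆ x y ≠ 0 := by
    have : ψ (G W.c₄ W.c₆ x y) ≠ 0 := by simpa [ψ] using hG
    rwa [map_G] at this
  have hs := sameThree_member hc hG'
  rw [show C4 (W.c₄ : ℚ) W.c₆ x y = (W'.c₄ : ℚ) by
      rw [h4, ← eq_intCast ψ (C4 W.c₄ W.c₆ x y), map_C4]; rfl,
    show C6 (W.c₄ : ℚ) W.c₆ x y = (W'.c₆ : ℚ) by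
      rw [h6, ← eq_intCast ψ (C6 W.c₄ W.c₆ x y), map_C6]; rfl] at hs
  have h : SameThree (W.map ψ) (W'.map ψ) :=
    (sameThree_short W).trans (hs.trans (sameThree_short W').symm)
  have : Fact (Nat.Prime 3) := ⟨by norm_num⟩
  obtain ⟨A, σ, hA, hσ⟩ := FLTAgent.Frobenius.exists_liesOverPrime_isFrobeniusAt hl
  have e1 := FLTAgent.WeilPairing.galoisTrace_frobenius (W := W) (p := 3) hl hW h3 A hA σ hσ
  have e2 := FLTAgent.WeilPairing.galoisTrace_frobenius (W := W') (p := 3) hl hW' h3 A hA σ hσ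
  rw [galoisTrace_eq_of_sameThree h σ, e2] at e1
  have := (ZMod.intCast_eq_intCast_iff_dvd_sub (W.apOfModel l) (W'.apOfModel l) 3).1 e1.symm
  simpa using this

end Rational

end FLTAgent.Hesse
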