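import Fermat.Agent.Wiring.Final
import Fermat.Agent.LevelThree.SuperSingular
import Fermat.Agent.Switch35.Member
import Fermat.Agent.Switch35.SameThree
import Fermat.Agent.Switch35.NoFive

/-!
# Residual modularity modulo three at every semistable curve

Supersingular curves are covered directly. Otherwise a curve with the same 3-torsion, irreducible
at `5` and near a cusp at `3`, is modular by the switch at five, and lends its level.
-/

set_option autoImplicit false

namespace FLTAgent.Hesse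

open WeierstrassCurve Wiring

/-- When `3 ∣ c₄` the curve is supersingular at three. -/
theorem nonsplitAtThree_of_three_dvd_c₄ {W : WeierstrassCurve ℤ} (hW : W.IsSemistableModel)
    (h : (3 : ℤ) ∣ W.c₄) : Switch3.NonsplitAtThree W := by
  have hgood : ¬ (3 : ℤ) ∣ W.Δ := fun hd => hW 3 Nat.prime_three hd h
  refine Or.inl ⟨hgood, ?_⟩
  rw [show (3 : ℤ) = ((3 : ℕ) : ℤ) from rfl, ← ZMod.intCast_zmod_eq_zero_iff_dvd,
    LevelThree.apOfModel_three_cast hgood]
  have h4 : (W.c₄ : ZMod 3) = 0 := (ZMod.intCast_zmod_eq_zero_iff_dvd _ 3).2 h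
  rw [show W.c₄ = W.b₂ ^ 2 - 24 * W.b₄ from rfl] at h4
  push_cast at h4
  rw [show (24 : ZMod 3) = 0 from rfl, zero_mul, sub_zero] at h4
  exact eq_zero_of_pow_eq_zero h4

/-- Residual modularity modulo three at a level the lifting theorem accepts. -/
theorem residualThree_of_nonsplit (h59 : LiftingThreeFive) (h3 : ResidualThreeNonsplit) :
    ResidualThree := by
  intro W hΔ hW hirr
  by_cases hc3 : (3 : ℤ) ∣ W.c₄
  · exact h3 W hΔ hW hirr (nonsplitAtThree_of_three_dvd_c₄ hW hc3)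
  obtain ⟨W', x, y, q, hΔ', hW', h25, hG, h4, h6, hq, hq4, hqΔ, hsq⟩ :=
    exists_member W hΔ hW (Switch.c₄_ne_zero W hΔ hW) hc3
  have h5 : W'.ModRepIsIrreducible 5 :=
    modRepIsIrreducible_five_of_dvd_c₄ W' hΔ' hq hq4 hqΔ hsq
  obtain ⟨V, hVΔ, hV, hVirr, hVns, hVcong⟩ :=
    Switch3.exists_switch_nonsplit W' hΔ' hW' (Or.inr h25)
  obtain ⟨M, hM, h9, hq3, hres⟩ := h3 V hVΔ hV hVirr hVns
  have : NeZero M := ⟨hM.ne'⟩
  obtain ⟨N, hN0, hNsq, hiff, hmod⟩ := h59 3 (Or.inl rfl) V hVΔ hV hVirr M hres h9 hq3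
  have : NeZero N := ⟨hN0.ne'⟩
  have hsqN : ∀ p : ℕ, p.Prime → ¬ p ^ 2 ∣ N := fun p hp h =>
    hp.not_isUnit (hNsq p (by rwa [← pow_two]))
  obtain ⟨N', hN0', hNsq', hiff', hmod'⟩ := h59 5 (Or.inr rfl) W' hΔ' hW' h5 N
    (isResiduallyModularOfLevel_of_congr Nat.prime_five
      (fun ℓ hℓ hlN hd => hlN ((hiff ℓ hℓ).2 hd)) hmod hVcong) (hsqN 5 Nat.prime_five)
    fun p hp _ h => hsqN p hp ((pow_dvd_pow p (by decide)).trans h)
  have hsqN' : ∀ p : ℕ, p.Prime → ¬ p ^ 2 ∣ N' := fun p hp h =>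
    hp.not_isUnit (hNsq' p (by rwa [← pow_two]))
  exact ⟨N', hN0', hsqN' 3 Nat.prime_three,
    fun p hp _ h => hsqN' p hp ((pow_dvd_pow p (by decide)).trans h),
    isResiduallyModularOfLevel_of_congr Nat.prime_three
      (fun ℓ hℓ hlN hd => hlN ((hiff' ℓ hℓ).2 hd)) hmod'
      fun ℓ hℓ hg hg' hne => dvd_apOfModel_sub_of_member hΔ hG h4 h6 hℓ hg hg' hne⟩

/-- Every semistable curve is modular, from the cubic descent of Langlands-Tunnell. -/
theorem isModular_semistable (hB : ∀ d : LT.Octa, LT.CubicDescent d) (W : WeierstrassCurve ℤ)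
    (hΔ : W.Δ ≠ 0) (hW : W.IsSemistableModel) : (W.map (Int.castRingHom ℚ)).IsModular :=
  isModular_of_semistable liftingThreeFive_holds
    (residualThree_of_nonsplit liftingThreeFive_holds (residualThreeNonsplit_of_pieces hB)) W hΔ hW

end FLTAgent.Hesse
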