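import Mathlib.Tactic

/-!
# The Hessian family of curves with a given 3-torsion module

For a curve with invariants `c`, `d` the member at `(x, y)` has invariants `C4`, `C6` and
discriminant multiplied by `G ^ 3`; the zeros of `G` are the abscissae of the points of order `3`.
-/

set_option autoImplicit false

namespace FLTAgent.Hesse

variable {R : Type*} [CommRing R]

/-- The quartic of the cusps. -/
def G (c d x y : R) : R :=
  x ^ 4 - 6 * c * x ^ 2 * y ^ 2 - 8 * d * x * y ^ 3 - 3 * c ^ 2 * y ^ 4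

/-- The invariant `c₄` of a member. -/
def C4 (c d x y : R) : R :=
  c * x ^ 4 + 4 * d * x ^ 3 * y + 6 * c ^ 2 * x ^ 2 * y ^ 2 + 4 * c * d * x * y ^ 3 +
    (4 * d ^ 2 - 3 * c ^ 3) * y ^ 4

/-- The invariant `c₆` of a member. -/
def C6 (c d x y : R) : R :=
  d * x ^ 6 + 6 * c ^ 2 * x ^ 5 * y + 15 * c * d * x ^ 4 * y ^ 2 + 20 * d ^ 2 * x ^ 3 * y ^ 3 +
    15 * c ^ 2 * d * x ^ 2 * y ^ 4 + (18 * c ^ 4 - 12 * c * d ^ 2) * x * y ^ 5 +
    (9 * c ^ 3 - 8 * d ^ 2) * d * y ^ 6

/-- The numerator of the Moebius map on the abscissae: the coefficient of `θ`. -/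
def numA (c d x y : R) : R := -x ^ 3 + 3 * c * x * y ^ 2 + 2 * d * y ^ 3

/-- The numerator of the Moebius map on the abscissae: the constant coefficient. -/
def numB (c d x y : R) : R := 3 * c * x ^ 2 * y + 6 * d * x * y ^ 2 + 3 * c ^ 2 * y ^ 3

theorem syzygy (c d x y : R) :
    C4 c d x y ^ 3 - C6 c d x y ^ 2 = (c ^ 3 - d ^ 2) * G c d x y ^ 3 := by
  unfold C4 C6 G; ring

/-- The Moebius map carries `Y² = f(θ)` to the member, up to a multiple of the quartic in `θ`. -/
theorem moebius (c d x y θ : R) :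
    (numA c d x y * θ + numB c d x y) ^ 3 -
        3 * C4 c d x y * (numA c d x y * θ + numB c d x y) * (y * θ - x) ^ 2 -
        2 * C6 c d x y * (y * θ - x) ^ 3 =
      G c d x y ^ 2 * ((y * θ - x) * (θ ^ 3 - 3 * c * θ - 2 * d) - y * G c d θ 1) := by
  unfold C4 C6 G numA numB; ring

variable {S : Type*} [CommRing S] (φ : R →+* S) (c d x y : R)

theorem map_G : φ (G c d x y) = G (φ c) (φ d) (φ x) (φ y) := by simp [G, map_ofNat]

theorem map_C4 : φ (C4 c d x y) = C4 (φ c) (φ d) (φ x) (φ y) := by simp [C4, map_ofNat]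

theorem map_C6 : φ (C6 c d x y) = C6 (φ c) (φ d) (φ x) (φ y) := by simp [C6, map_ofNat]

theorem G_smul (l : R) : G c d (l * x) (l * y) = l ^ 4 * G c d x y := by unfold G; ring

theorem C4_smul (l : R) : C4 c d (l * x) (l * y) = l ^ 4 * C4 c d x y := by unfold C4; ring

theorem C6_smul (l : R) : C6 c d (l * x) (l * y) = l ^ 6 * C6 c d x y := by unfold C6; ring

/-- At `(x, y)` the quartic and `C4` vanish together only for a singular curve. -/
theorem eq_zero_of_G_C4 {K : Type*} [Field K] (h2 : (2 : K) ≠ 0) (h3 : (3 : K) ≠ 0) {c d x y : K}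
    (hG : G c d x y = 0) (hH : C4 c d x y = 0) (hxy : x ≠ 0 ∨ y ≠ 0) : c ^ 3 - d ^ 2 = 0 := by
  have hy : y ≠ 0 := by
    rintro rfl
    exact (hxy.resolve_right (by simp)) (eq_zero_of_pow_eq_zero (n := 4) (by simpa [G] using hG))
  obtain ⟨θ, rfl⟩ : ∃ θ, x = y * θ := ⟨x / y, by field_simp⟩
  have hy4 : y ^ 4 ≠ 0 := pow_ne_zero 4 hy
  have hG' : G c d θ 1 = 0 := by
    have e := G_smul c d θ 1 y
    rw [mul_one, hG] at e
    exact (mul_eq_zero.1 e.symm).resolve_left hy4
  have hH' : C4 c d θ 1 = 0 := by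
    have e := C4_smul c d θ 1 y
    rw [mul_one, hH] at e
    exact (mul_eq_zero.1 e.symm).resolve_left hy4
  unfold G at hG'; unfold C4 at hH'
  have hf : θ ^ 3 - 3 * c * θ - 2 * d = 0 := eq_zero_of_pow_eq_zero (n := 2) (by
    linear_combination hH' + (θ ^ 2 - c) * hG')
  have e3 : (3 : K) * (c * θ ^ 2 + 2 * d * θ + c ^ 2) = 0 := by
    linear_combination θ * hf - hG'
  have hq : c * θ ^ 2 + 2 * d * θ + c ^ 2 = 0 := (mul_eq_zero.1 e3).resolve_left h3
  have h4 : (2 : K) * 2 * ((c ^ 3 - d ^ 2) * θ) = 0 := by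
    linear_combination (c * θ - 2 * d) * hq - c ^ 2 * hf
  rcases mul_eq_zero.1 ((mul_eq_zero.1 h4).resolve_left (mul_ne_zero h2 h2)) with h | h
  · exact h
  · subst h
    have e2 : (2 : K) * d = 0 := by linear_combination -hf
    have hd : d = 0 := (mul_eq_zero.1 e2).resolve_left h2
    have hc : c = 0 := eq_zero_of_pow_eq_zero (n := 2) (by linear_combination hq)
    rw [hd, hc]; ring

end FLTAgent.Hesse
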